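/-
GATE-N / S48-(N6)-EXPORT (helper51): `DS/N6/Main.exists_complex_galoisRep` in the shape consumed by
S48-TOP (helper72, board 3384 (C)/(D)): coefficient functions `a' e' : ℕ → 𝓞 E`, a threshold `ℓ₀`
instead of a finite exceptional set, the frozen-S48 spelling of the local clause, and the bound
`‖a p‖ ≤ 2` (every `a p`, `p ∤ N`, is a sum of two `m`-th roots of unity).
-/
import Mathlib
import Fermat.Agent.DS.N6.Main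
import Fermat.Agent.Common_helper32.FrobeniusExists

set_option autoImplicit false

open NumberField

namespace Fermat.Agent.DS.N6

local notation "Γℚ" => (AlgebraicClosure ℚ ≃ₐ[ℚ] AlgebraicClosure ℚ)

variable {E : Type*} [Field E] [NumberField E]

/-- A sum of two `m`-th roots of unity has norm at most `2`. -/
theorem norm_map_pow_add_pow_le_two (ι₀ : E →+* ℂ) {m : ℕ} (hm : 0 < m) {ζ : 𝓞 E}
    (hζ : IsPrimitiveRoot ζ m) (i j : ℕ) : ‖ι₀ ((ζ ^ i + ζ ^ j : 𝓞 E) : E)‖ ≤ 2 := by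
  have h1 : (ι₀ ((ζ : 𝓞 E) : E)) ^ m = 1 := by
    have h0 : ((ζ : 𝓞 E) : E) ^ m = 1 := by
      have := congrArg (fun z : 𝓞 E => (z : E)) hζ.pow_eq_one
      simpa using this
    rw [← map_pow, h0, map_one]
  have h2 : ‖ι₀ ((ζ : 𝓞 E) : E)‖ = 1 := Complex.norm_eq_one_of_pow_eq_one h1 hm.ne'
  have h3 : ι₀ ((ζ ^ i + ζ ^ j : 𝓞 E) : E) =
      (ι₀ ((ζ : 𝓞 E) : E)) ^ i + (ι₀ ((ζ : 𝓞 E) : E)) ^ j := by
    push_cast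
    simp only [map_add, map_pow]
  rw [h3]
  calc ‖(ι₀ ((ζ : 𝓞 E) : E)) ^ i + (ι₀ ((ζ : 𝓞 E) : E)) ^ j‖
      ≤ ‖(ι₀ ((ζ : 𝓞 E) : E)) ^ i‖ + ‖(ι₀ ((ζ : 𝓞 E) : E)) ^ j‖ := norm_add_le _ _
    _ = 2 := by rw [norm_pow, norm_pow, h2, one_pow, one_pow]; norm_num

/-- **Deligne–Serre §8 in the TOP shape** (board 3384 (C) ⟹ (D)). -/
theorem exists_complex_galoisRep_of_boundedModL (N : ℕ) (hN : N ≠ 0) (ι₀ : E →+* ℂ)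
    (a' e' : ℕ → 𝓞 E) (A : ℕ) {m : ℕ} (hm : 0 < m) (hAm : ∀ k : ℕ, 0 < k → k ≤ A → k ∣ m)
    (ζ : 𝓞 E) (hζ : IsPrimitiveRoot ζ m) (ℓ₀ : ℕ)
    (H : ∀ ℓ : ℕ, ℓ.Prime → ℓ₀ ≤ ℓ → ¬ ℓ ∣ N → ∀ φ : 𝓞 E →+* ZMod ℓ,
      ∃ ρbar : Γℚ →* GL (Fin 2) (ZMod ℓ), GaloisFactorsThroughFiniteLevel ρbar ∧
        Nat.card ρbar.range ≤ A ∧
        ∀ p : ℕ, p.Prime → ¬ p ∣ N → p ≠ ℓ →
          ∀ V : ValuationSubring (AlgebraicClosure ℚ), V.LiesOverPrime p →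
            (∀ σ ∈ V.inertiaSubgroupIn ℚ, ρbar σ = 1) ∧
            ∀ τ : Γℚ, V.IsFrobeniusAt τ p →
              ((ρbar τ : GL (Fin 2) (ZMod ℓ)) : Matrix (Fin 2) (Fin 2) (ZMod ℓ)).trace =
                φ (a' p) ∧
              ((ρbar τ : GL (Fin 2) (ZMod ℓ)) : Matrix (Fin 2) (Fin 2) (ZMod ℓ)).det =
                φ (e' p)) :
    ∃ ρ : Γℚ →* GL (Fin 2) ℂ, GaloisFactorsThroughFiniteLevel ρ ∧
      (∀ p : ℕ, p.Prime → ¬ p ∣ N →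
        ∀ V : ValuationSubring (AlgebraicClosure ℚ), V.LiesOverPrime p →
          (∀ σ ∈ V.inertiaSubgroupIn ℚ, ρ σ = 1) ∧
          ∀ σ : Γℚ, V.IsFrobeniusAt σ p →
            ((ρ σ : GL (Fin 2) ℂ) : Matrix (Fin 2) (Fin 2) ℂ).trace = ι₀ ((a' p : 𝓞 E) : E) ∧
            ((ρ σ : GL (Fin 2) ℂ) : Matrix (Fin 2) (Fin 2) ℂ).det = ι₀ ((e' p : 𝓞 E) : E)) ∧
      (∀ p : ℕ, p.Prime → ¬ p ∣ N → ∃ i j : ℕ, i < m ∧ j < m ∧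
        ι₀ ((a' p : 𝓞 E) : E) = ι₀ ((ζ ^ i + ζ ^ j : 𝓞 E) : E) ∧
        ι₀ ((e' p : 𝓞 E) : E) = ι₀ ((ζ ^ (i + j) : 𝓞 E) : E)) ∧
      (∀ p : ℕ, p.Prime → ¬ p ∣ N → ‖ι₀ ((a' p : 𝓞 E) : E)‖ ≤ 2) ∧
      (∀ σ : Γℚ, ∃ i j : ℕ, i < m ∧ j < m ∧
        ((ρ σ : GL (Fin 2) ℂ) : Matrix (Fin 2) (Fin 2) ℂ).trace =
          ι₀ ((ζ ^ i + ζ ^ j : 𝓞 E) : E) ∧
        ((ρ σ : GL (Fin 2) ℂ) : Matrix (Fin 2) (Fin 2) ℂ).det =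
          ι₀ ((ζ ^ (i + j) : 𝓞 E) : E)) := by
  classical
  have hinj : Function.Injective fun x : 𝓞 E => ι₀ (x : E) :=
    ι₀.injective.comp RingOfIntegers.coe_injective
  obtain ⟨ρ, hfin, htr, hgood⟩ := exists_complex_galoisRep N hN
    (fun p => ι₀ ((a' p : 𝓞 E) : E)) (fun p => ι₀ ((e' p : 𝓞 E) : E)) ι₀
    (fun p _ _ => ⟨a' p, rfl⟩) (fun p _ _ => ⟨e' p, rfl⟩) A hm hAm ζ hζ
    (Finset.range ℓ₀ ∪ N.primeFactors) (by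
      intro ℓ hℓ hℓB φ
      have h1 : ℓ₀ ≤ ℓ := by
        by_contra hcon
        exact hℓB (Finset.mem_union_left _ (Finset.mem_range.mpr (by omega)))
      have h2 : ¬ ℓ ∣ N := fun hd =>
        hℓB (Finset.mem_union_right _ (Nat.mem_primeFactors.mpr ⟨hℓ, hd, hN⟩))
      obtain ⟨ρbar, hf, hc, hloc⟩ := H ℓ hℓ h1 h2 φ
      refine ⟨ρbar, hf, hc, fun p hp hpN hpℓ V hV => ⟨(hloc p hp hpN hpℓ V hV).1, ?_⟩⟩
      intro σ hσ x y hx hy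
      have ex : x = a' p := hinj hx
      have ey : y = e' p := hinj hy
      rw [ex, ey]
      exact (hloc p hp hpN hpℓ V hV).2 σ hσ)
  have hval : ∀ p : ℕ, p.Prime → ¬ p ∣ N → ∃ i j : ℕ, i < m ∧ j < m ∧
      ι₀ ((a' p : 𝓞 E) : E) = ι₀ ((ζ ^ i + ζ ^ j : 𝓞 E) : E) ∧
      ι₀ ((e' p : 𝓞 E) : E) = ι₀ ((ζ ^ (i + j) : 𝓞 E) : E) := by
    intro p hp hpN
    obtain ⟨V, σ, hV, hσ⟩ := Fermat.Agent.Common_helper32.exists_isFrobeniusAt p hp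
    obtain ⟨i, j, hi, hj, h1, h2⟩ := htr σ
    obtain ⟨h3, h4⟩ := (hgood p hp hpN V hV).2 σ hσ
    exact ⟨i, j, hi, hj, h3.symm.trans h1, h4.symm.trans h2⟩
  refine ⟨ρ, hfin, fun p hp hpN => hgood p hp hpN, hval, ?_, htr⟩
  intro p hp hpN
  obtain ⟨i, j, -, -, h1, -⟩ := hval p hp hpN
  rw [h1]
  exact norm_map_pow_add_pow_le_two ι₀ hm hζ i j

end Fermat.Agent.DS.N6
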