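/-
GATE-N / S48-(N6)-FIELD (helper51): the coefficient field for `DS/N6/Main.exists_complex_galoisRep`.

Given a finite set `S` of algebraic numbers in `ℂ` and `m > 0`, the subfield
`E := ℚ(S, exp(2πi/m)) ⊆ ℂ` is a number field; every algebraic integer of `ℂ` lying in `E` comes
from `𝓞 E`, and `𝓞 E` contains a primitive `m`-th root of unity.
-/
import Mathlib

set_option autoImplicit false

open NumberField

namespace Fermat.Agent.DS.N6

/-- The field `ℚ(S, ζ_m)` inside `ℂ`. -/
noncomputable def coeffField (S : Set ℂ) (m : ℕ) : IntermediateField ℚ ℂ :=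
  IntermediateField.adjoin ℚ (S ∪ {Complex.exp (2 * Real.pi * Complex.I / m)})

theorem subset_coeffField (S : Set ℂ) (m : ℕ) : S ⊆ coeffField S m := fun _ hx =>
  IntermediateField.subset_adjoin ℚ _ (Or.inl hx)

theorem exp_mem_coeffField (S : Set ℂ) (m : ℕ) :
    Complex.exp (2 * Real.pi * Complex.I / m) ∈ coeffField S m :=
  IntermediateField.subset_adjoin ℚ _ (Or.inr rfl)

/-- `ℚ(S, ζ_m)` is a number field when `S` is a finite set of algebraic numbers. -/
theorem numberField_coeffField {S : Set ℂ} (hS : S.Finite) (halg : ∀ x ∈ S, IsIntegral ℚ x)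
    {m : ℕ} (hm : 0 < m) : NumberField (coeffField S m) := by
  have hfin : (S ∪ {Complex.exp (2 * Real.pi * Complex.I / m)}).Finite :=
    hS.union (Set.finite_singleton _)
  have : Finite ↑(S ∪ {Complex.exp (2 * Real.pi * Complex.I / m)}) := hfin.to_subtype
  have hint : ∀ x ∈ S ∪ {Complex.exp (2 * Real.pi * Complex.I / (m : ℂ))}, IsIntegral ℚ x := by
    rintro x (hx | hx)
    · exact halg x hx
    · rw [Set.mem_singleton_iff] at hx
      rw [hx]
      exact ((Complex.isPrimitiveRoot_exp m hm.ne').isIntegral hm).tower_top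
  have : FiniteDimensional ℚ (coeffField S m) := IntermediateField.finiteDimensional_adjoin hint
  exact { to_charZero := inferInstance, to_finiteDimensional := this }

/-- An algebraic integer of `ℂ` lying in the number field `E ⊆ ℂ` comes from `𝓞 E`. -/
theorem exists_ringOfIntegers_eq (E : IntermediateField ℚ ℂ) {x : ℂ} (hx : x ∈ E)
    (hint : IsIntegral ℤ x) : ∃ y : 𝓞 E, ((y : E) : ℂ) = x := by
  have h1 : IsIntegral ℤ (⟨x, hx⟩ : E) :=
    (isIntegral_algebraMap_iff (A := E) (B := ℂ) (algebraMap E ℂ).injective).mp hint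
  refine ⟨IsIntegralClosure.mk' (𝓞 E) (⟨x, hx⟩ : E) h1, ?_⟩
  have := IsIntegralClosure.algebraMap_mk' (𝓞 E) (⟨x, hx⟩ : E) h1
  exact congrArg Subtype.val this

/-- `𝓞 E` contains a primitive `m`-th root of unity for `E = ℚ(S, ζ_m)`. -/
theorem exists_primitiveRoot_coeffField (S : Set ℂ) {m : ℕ} (hm : 0 < m) :
    ∃ ζ : 𝓞 (coeffField S m), IsPrimitiveRoot ζ m := by
  have hprim := Complex.isPrimitiveRoot_exp m hm.ne'
  obtain ⟨y, hy⟩ := exists_ringOfIntegers_eq (coeffField S m) (exp_mem_coeffField S m)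
    (hprim.isIntegral hm)
  refine ⟨y, ?_⟩
  have hinj : Function.Injective fun z : 𝓞 (coeffField S m) => ((z : coeffField S m) : ℂ) :=
    Subtype.val_injective.comp RingOfIntegers.coe_injective
  refine IsPrimitiveRoot.of_map_of_injective
    (f := ((coeffField S m).val.toRingHom.comp (algebraMap (𝓞 (coeffField S m)) (coeffField S m))))
    ?_ hinj
  change IsPrimitiveRoot (((y : coeffField S m) : ℂ)) m
  rw [hy]
  exact hprim

end Fermat.Agent.DS.N6
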