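/-
GATE-N / S48-(N6)-PACK (helper51): from "the coefficients lie in a subring `R ⊆ ℂ` which is a
finitely generated `ℤ`-module" (GateInt, N2) and a finite set `T` of further algebraic integers
(the values of the nebentypus) to the data `E, ζ` consumed by
`DS/N6/Export.exists_complex_galoisRep_of_boundedModL`.
-/
import Mathlib
import Fermat.Agent.DS.N6.Field

set_option autoImplicit false

open NumberField

namespace Fermat.Agent.DS.N6

/-- Every element of a subring of `ℂ` which is a finite `ℤ`-module is an algebraic integer. -/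
theorem isIntegral_of_mem_of_finite (R : Subring ℂ) [Module.Finite ℤ R] {x : ℂ} (hx : x ∈ R) :
    IsIntegral ℤ x := by
  have h1 : IsIntegral ℤ (⟨x, hx⟩ : R) := IsIntegral.of_finite ℤ _
  exact h1.map (R.subtype.toIntAlgHom)

/-- **The coefficient field package.** -/
theorem exists_coeffField_package (R : Subring ℂ) [Module.Finite ℤ R] (T : Finset ℂ)
    (hT : ∀ x ∈ T, IsIntegral ℤ x) {m : ℕ} (hm : 0 < m) :
    ∃ (E : IntermediateField ℚ ℂ) (_ : NumberField E) (ζ : 𝓞 E), IsPrimitiveRoot ζ m ∧
      (∀ x ∈ R, ∃ y : 𝓞 E, ((y : E) : ℂ) = x) ∧ (∀ x ∈ T, ∃ y : 𝓞 E, ((y : E) : ℂ) = x) := by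
  classical
  obtain ⟨n, s, hs⟩ := Module.Finite.exists_fin (R := ℤ) (M := R)
  set S : Set ℂ := (Set.range fun i : Fin n => ((s i : R) : ℂ)) ∪ (T : Set ℂ) with hSdef
  have hSfin : S.Finite := (Set.finite_range _).union T.finite_toSet
  have hSint : ∀ x ∈ S, IsIntegral ℤ x := by
    rintro x (⟨i, rfl⟩ | hx)
    · exact isIntegral_of_mem_of_finite R (s i).2
    · exact hT x hx
  have hSalg : ∀ x ∈ S, IsIntegral ℚ x := fun x hx => (hSint x hx).tower_top
  have hnf : NumberField (coeffField S m) := numberField_coeffField hSfin hSalg hm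
  obtain ⟨ζ, hζ⟩ := exists_primitiveRoot_coeffField S hm
  refine ⟨coeffField S m, hnf, ζ, hζ, ?_, ?_⟩
  · intro x hx
    have hmem : x ∈ coeffField S m := by
      have h1 : (⟨x, hx⟩ : R) ∈ Submodule.span ℤ (Set.range s) := by rw [hs]; trivial
      have h2 : ∀ y : R, y ∈ Submodule.span ℤ (Set.range s) → (y : ℂ) ∈ coeffField S m := by
        intro y hy
        induction hy using Submodule.span_induction with
        | mem z hz =>
          obtain ⟨i, rfl⟩ := hz
          exact subset_coeffField S m (Or.inl ⟨i, rfl⟩)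
        | zero => simp
        | add a b _ _ ha hb =>
          rw [Subring.coe_add]
          exact add_mem ha hb
        | smul c a _ ha =>
          rw [zsmul_eq_mul, Subring.coe_mul, Subring.coe_intCast]
          exact mul_mem (intCast_mem _ c) ha
      exact h2 ⟨x, hx⟩ h1
    exact exists_ringOfIntegers_eq _ hmem (isIntegral_of_mem_of_finite R hx)
  · intro x hx
    exact exists_ringOfIntegers_eq _ (subset_coeffField S m (Or.inr hx)) (hT x hx)

end Fermat.Agent.DS.N6
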