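/-
GATE-N / S48-(N6)-FINAL (helper51): the frozen S48 conclusion from FOUR gates, in one theorem
(`s48_of_gates`): Pack → Export (Deligne–Serre §8) → helper4's `isIrreducible_of_weightedCheb`.

* GateInt      : a subring `R ⊆ ℂ`, finite over `ℤ`, containing all `a p` (`p ∤ N`);
* BoundedModL  : for every coefficient package `(E, a', e')` the mod `ℓ` representations of
                 uniformly bounded image (S48-TOP board 3384 (C));
* GateRankin2  : `‖a p‖ ≤ 2` for all `p ∤ N` ⟹ `∑_{p ∈ T} ‖a p‖² p^{-s} ≤ log (1/(s-1)) + C`;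
* GateCheb (O4): the weighted Chebotarev lower bound for nonnegative class functions.
-/
import Mathlib
import Fermat.Prelude.Def_GaloisRep_Residual
import Fermat.Prelude.Def_Deformations_MatrixRepresentation
import Fermat.Agent.DS.N6.Export
import Fermat.Agent.DS.N6.Pack
import Fermat.Agent.DS.N7.IrredTop

set_option autoImplicit false

open NumberField CongruenceSubgroup
open scoped MatrixGroups

namespace Fermat.Agent.DS.N6

local notation "Γℚ" => (AlgebraicClosure ℚ ≃ₐ[ℚ] AlgebraicClosure ℚ)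

open Fermat.Agent.GJ.FrobLift in
/-- A finite-level representation has finite image. -/
theorem finite_range_of_finiteLevel {M : Type} [Group M] (ρ : Γℚ →* M)
    (hρ : GaloisFactorsThroughFiniteLevel ρ) : Finite ρ.range := by
  classical
  obtain ⟨E, hfin, hgal, hlevel⟩ := exists_galois_level ρ hρ
  have : FiniteDimensional ℚ E := hfin
  have : IsGalois ℚ E := hgal
  have hsurj := AlgEquiv.restrictNormalHom_surjective (F := ℚ) (K₁ := E) (AlgebraicClosure ℚ)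
  let f : (E ≃ₐ[ℚ] E) → M := fun g => ρ (Function.surjInv hsurj g)
  have hsub : (ρ.range : Set M) ⊆ Set.range f := by
    rintro _ ⟨σ, rfl⟩
    refine ⟨AlgEquiv.restrictNormalHom E σ, ?_⟩
    exact hlevel _ _ (Function.surjInv_eq hsurj _)
  exact ((Set.finite_range f).subset hsub).to_subtype

/-- The values of a Dirichlet character are algebraic integers. -/
theorem isIntegral_dirichletCharacter {N : ℕ} [NeZero N] (ε : DirichletCharacter ℂ N)
    (x : ZMod N) : IsIntegral ℤ (ε x) := by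
  by_cases hx : IsUnit x
  · obtain ⟨u, rfl⟩ := hx
    have h1 : (ε (u : ZMod N)) ^ (Fintype.card (ZMod N)ˣ) = 1 := by
      rw [← map_pow, ← Units.val_pow_eq_pow_val, pow_card_eq_one, Units.val_one, map_one]
    refine IsIntegral.of_pow (n := Fintype.card (ZMod N)ˣ) Fintype.card_pos ?_
    rw [h1]
    exact isIntegral_one
  · rw [MulChar.map_nonunit ε hx]
    exact isIntegral_zero

open Fermat.Agent.DS.N7 in
/-- **S48 from the gates** (Pack → Export → IrredTop). -/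
theorem s48_of_gates (N : ℕ) [NeZero N] (ε : DirichletCharacter ℂ N) (f : CuspForm (Gamma1 N) 1)
    (R : Subring ℂ) [Module.Finite ℤ R]
    (hR : ∀ p : ℕ, p.Prime → ¬ p ∣ N → ModularFormClass.qCoeff f p ∈ R)
    (A : ℕ)
    (hMod : ∀ (E : IntermediateField ℚ ℂ) [NumberField E] (a' e' : ℕ → 𝓞 E),
      (∀ p : ℕ, p.Prime → ¬ p ∣ N → ((a' p : E) : ℂ) = ModularFormClass.qCoeff f p) →
      (∀ p : ℕ, p.Prime → ¬ p ∣ N → ((e' p : E) : ℂ) = ε (p : ZMod N)) →
      ∃ ℓ₀ : ℕ, ∀ ℓ : ℕ, ℓ.Prime → ℓ₀ ≤ ℓ → ¬ ℓ ∣ N → ∀ φ : 𝓞 E →+* ZMod ℓ,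
        ∃ ρbar : Γℚ →* GL (Fin 2) (ZMod ℓ), GaloisFactorsThroughFiniteLevel ρbar ∧
          Nat.card ρbar.range ≤ A ∧
          ∀ p : ℕ, p.Prime → ¬ p ∣ N → p ≠ ℓ →
            ∀ V : ValuationSubring (AlgebraicClosure ℚ), V.LiesOverPrime p →
              (∀ σ ∈ V.inertiaSubgroupIn ℚ, ρbar σ = 1) ∧
              ∀ τ : Γℚ, V.IsFrobeniusAt τ p →
                ((ρbar τ : GL (Fin 2) (ZMod ℓ)) : Matrix (Fin 2) (Fin 2) (ZMod ℓ)).trace =
                  φ (a' p) ∧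
                ((ρbar τ : GL (Fin 2) (ZMod ℓ)) : Matrix (Fin 2) (Fin 2) (ZMod ℓ)).det =
                  φ (e' p))
    (hRankin : (∀ p : ℕ, p.Prime → ¬ p ∣ N → ‖ModularFormClass.qCoeff f p‖ ≤ 2) →
      ∃ C : ℝ, ∀ s : ℝ, 1 < s → s < 2 → ∀ T : Finset ℕ,
        (∀ p ∈ T, p.Prime ∧ p ∉ N.primeFactors) →
        ∑ p ∈ T, ‖ModularFormClass.qCoeff f p‖ ^ 2 * (p : ℝ) ^ (-s) ≤
          Real.log (1 / (s - 1)) + C)
    (hCheb : ∀ (G : Type) [Group G] [Fintype G] (π : Γℚ →* G), Function.Surjective π →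
      GaloisFactorsThroughFiniteLevel π → ∀ w : G → ℝ, (∀ g, 0 ≤ w g) →
      (∀ g h : G, w (h * g * h⁻¹) = w g) → WeightedChebLower π N.primeFactors w) :
    ∃ ρ : Γℚ →* GL (Fin 2) ℂ, GaloisFactorsThroughFiniteLevel ρ ∧
      (Deformation.matrixRepresentation ρ).IsIrreducible ∧
      ∀ p : ℕ, p.Prime → ¬ p ∣ N →
        ∀ A : ValuationSubring (AlgebraicClosure ℚ), A.LiesOverPrime p →
          (∀ σ ∈ A.inertiaSubgroupIn ℚ, ρ σ = 1) ∧
          ∀ σ : Γℚ, A.IsFrobeniusAt σ p →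
            ((ρ σ : GL (Fin 2) ℂ) : Matrix (Fin 2) (Fin 2) ℂ).trace =
              ModularFormClass.qCoeff f p ∧
            ((ρ σ : GL (Fin 2) ℂ) : Matrix (Fin 2) (Fin 2) ℂ).det = ε (p : ZMod N) := by
  classical
  have hN : N ≠ 0 := NeZero.ne N
  -- the coefficient field
  set m : ℕ := A.factorial with hmdef
  have hm : 0 < m := Nat.factorial_pos A
  have hAm : ∀ k : ℕ, 0 < k → k ≤ A → k ∣ m := fun k hk hkA => Nat.dvd_factorial hk hkA
  obtain ⟨E, hE, ζ, hζ, hRE, hTE⟩ := exists_coeffField_package R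
    (Finset.univ.image fun x : ZMod N => ε x)
    (by
      intro x hx
      obtain ⟨y, -, rfl⟩ := Finset.mem_image.mp hx
      exact isIntegral_dirichletCharacter ε y) hm
  -- the coefficient functions
  have ha'ex : ∀ p : ℕ, ∃ y : 𝓞 E, p.Prime → ¬ p ∣ N →
      ((y : E) : ℂ) = ModularFormClass.qCoeff f p := by
    intro p
    by_cases hp : p.Prime ∧ ¬ p ∣ N
    · obtain ⟨y, hy⟩ := hRE _ (hR p hp.1 hp.2)
      exact ⟨y, fun _ _ => hy⟩
    · exact ⟨0, fun h1 h2 => absurd ⟨h1, h2⟩ hp⟩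
  have he'ex : ∀ p : ℕ, ∃ y : 𝓞 E, ((y : E) : ℂ) = ε (p : ZMod N) := fun p =>
    hTE _ (Finset.mem_image.mpr ⟨(p : ZMod N), Finset.mem_univ _, rfl⟩)
  choose a' ha' using ha'ex
  choose e' he' using he'ex
  obtain ⟨ℓ₀, hℓ₀⟩ := hMod E a' e' ha' (fun p _ _ => he' p)
  -- Deligne–Serre §8
  obtain ⟨ρ, hfin, hloc, -, hnorm, htr⟩ :=
    exists_complex_galoisRep_of_boundedModL N hN (algebraMap E ℂ) a' e' A hm hAm ζ hζ ℓ₀ hℓ₀
  have hval : ∀ p : ℕ, p.Prime → ¬ p ∣ N →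
      algebraMap E ℂ ((a' p : 𝓞 E) : E) = ModularFormClass.qCoeff f p := fun p hp hpN =>
    ha' p hp hpN
  -- the local clause
  have hlocal : ∀ p : ℕ, p.Prime → ¬ p ∣ N →
      ∀ V : ValuationSubring (AlgebraicClosure ℚ), V.LiesOverPrime p →
        (∀ σ ∈ V.inertiaSubgroupIn ℚ, ρ σ = 1) ∧
        ∀ σ : Γℚ, V.IsFrobeniusAt σ p →
          ((ρ σ : GL (Fin 2) ℂ) : Matrix (Fin 2) (Fin 2) ℂ).trace =
            ModularFormClass.qCoeff f p ∧
          ((ρ σ : GL (Fin 2) ℂ) : Matrix (Fin 2) (Fin 2) ℂ).det = ε (p : ZMod N) := by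
    intro p hp hpN V hV
    obtain ⟨h1, h2⟩ := hloc p hp hpN V hV
    refine ⟨h1, fun σ hσ => ?_⟩
    obtain ⟨h3, h4⟩ := h2 σ hσ
    exact ⟨h3.trans (hval p hp hpN), h4.trans (he' p)⟩
  refine ⟨ρ, hfin, ?_, hlocal⟩
  -- irreducibility
  have hfinite : Finite ρ.range := finite_range_of_finiteLevel ρ hfin
  have : Fintype ρ.range := Fintype.ofFinite _
  have hnorm' : ∀ p : ℕ, p.Prime → ¬ p ∣ N → ‖ModularFormClass.qCoeff f p‖ ≤ 2 := by
    intro p hp hpN
    rw [← hval p hp hpN]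
    exact hnorm p hp hpN
  have hπfin : GaloisFactorsThroughFiniteLevel ρ.rangeRestrict := by
    obtain ⟨L, hL, h⟩ := hfin
    exact ⟨L, hL, fun σ hσ => Subtype.ext (h σ hσ)⟩
  have hirr := isIrreducible_of_weightedCheb (G := ρ.range) ρ.rangeRestrict
    ρ.rangeRestrict_surjective ρ.range.subtype N.primeFactors
    (fun p => ModularFormClass.qCoeff f p)
    (by
      intro p hp hpB V hV τ hτ
      have hpN : ¬ p ∣ N := fun hd => hpB (Nat.mem_primeFactors.mpr ⟨hp, hd, hN⟩)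
      exact ((hlocal p hp hpN V hV).2 τ hτ).1)
    (hRankin hnorm')
    (hCheb ρ.range ρ.rangeRestrict ρ.rangeRestrict_surjective hπfin _ (fun g => by positivity)
      (by
      intro g h
      have : ((ρ.range.subtype (h * g * h⁻¹) : GL (Fin 2) ℂ) : Matrix (Fin 2) (Fin 2) ℂ) =
          ((ρ.range.subtype h : GL (Fin 2) ℂ) : Matrix (Fin 2) (Fin 2) ℂ) *
            ((ρ.range.subtype g : GL (Fin 2) ℂ) : Matrix (Fin 2) (Fin 2) ℂ) *
            ((ρ.range.subtype h : GL (Fin 2) ℂ) : Matrix (Fin 2) (Fin 2) ℂ)⁻¹ := by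
        rw [map_mul, map_mul, map_inv]
        simp
      show ‖(((ρ.range.subtype (h * g * h⁻¹) : GL (Fin 2) ℂ) : Matrix (Fin 2) (Fin 2) ℂ)).trace‖ ^ 2
        = ‖(((ρ.range.subtype g : GL (Fin 2) ℂ) : Matrix (Fin 2) (Fin 2) ℂ)).trace‖ ^ 2
      rw [this, Matrix.trace_mul_comm, Matrix.inv_mul_cancel_left_of_invertible]))
  have hcomp : ρ.range.subtype.comp ρ.rangeRestrict = ρ := by
    ext σ
    rfl
  rw [hcomp] at hirr
  exact hirr

end Fermat.Agent.DS.N6
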