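/-
GATE-N / S48-(N6)-FINAL-FG (helper51): `s48_of_gates` with GateInt in helper38's form
`hfg : ∃ L : Submodule ℤ ℂ, L.FG ∧ ∀ n, qCoeff f n ∈ L` (node (M) CoeffModule of N2), through
helper67's `DS/N2/IntegralFG.coeffRing_fg` (`ℤ[a p : p ∤ N]` is a finite `ℤ`-module).
-/
import Mathlib
import Fermat.Agent.DS.N6.Final
import Fermat.Agent.DS.N2.IntegralFG

set_option autoImplicit false

open NumberField CongruenceSubgroup
open scoped MatrixGroups

namespace Fermat.Agent.DS.N6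

local notation "Γℚ" => (AlgebraicClosure ℚ ≃ₐ[ℚ] AlgebraicClosure ℚ)

open Fermat.Agent.DS.N7 Fermat.Agent.DS.N2 in
/-- **S48 from the gates**, with GateInt in helper38's form `hfg` (all `qCoeff f n` lie in one
finitely generated `ℤ`-submodule of `ℂ`). -/
theorem s48_of_gates_fg (N : ℕ) [NeZero N] (ε : DirichletCharacter ℂ N) (f : CuspForm (Gamma1 N) 1)
    (hf₁ : ModularFormClass.qCoeff f 1 = 1)
    (hT : ∀ p : ℕ, p.Prime → ¬ p ∣ N → ∀ n : ℕ,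
        ModularFormClass.qCoeff f (p * n) +
            ε (p : ZMod N) * (if p ∣ n then ModularFormClass.qCoeff f (n / p) else 0) =
          ModularFormClass.qCoeff f p * ModularFormClass.qCoeff f n)
    (hfg : ∃ L : Submodule ℤ ℂ, L.FG ∧ ∀ n, ModularFormClass.qCoeff f n ∈ L)
    (A : ℕ)
    (hMod : ∀ (E : IntermediateField ℚ ℂ) [NumberField E] (a' e' : ℕ → 𝓞 E),
      (∀ p : ℕ, p.Prime → ¬ p ∣ N → ((a' p : E) : ℂ) = ModularFormClass.qCoeff f p) →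
      (∀ p : ℕ, p.Prime → ¬ p ∣ N → ((e' p : E) : ℂ) = ε (p : ZMod N)) →
      ∃ ℓ₀ : ℕ, ∀ ℓ : ℕ, ℓ.Prime → ℓ₀ ≤ ℓ → ¬ ℓ ∣ N → ∀ φ : 𝓞 E →+* ZMod ℓ,
        ∃ ρbar : Γℚ →* GL (Fin 2) (ZMod ℓ), GaloisFactorsThroughFiniteLevel ρbar ∧
          Nat.card ρbar.range ≤ A ∧
          ∀ p : ℕ, p.Prime → ¬ p ∣ N → p ≠ ℓ →
            ∀ V : ValuationSubring (AlgebraicClosure ℚ), V.LiesOverPrime p →
              (∀ σ ∈ V.inertiaSubgroupIn ℚ, ρbar σ = 1) ∧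
              ∀ τ : Γℚ, V.IsFrobeniusAt τ p →
                ((ρbar τ : GL (Fin 2) (ZMod ℓ)) : Matrix (Fin 2) (Fin 2) (ZMod ℓ)).trace =
                  φ (a' p) ∧
                ((ρbar τ : GL (Fin 2) (ZMod ℓ)) : Matrix (Fin 2) (Fin 2) (ZMod ℓ)).det =
                  φ (e' p))
    (hRankin : (∀ p : ℕ, p.Prime → ¬ p ∣ N → ‖ModularFormClass.qCoeff f p‖ ≤ 2) →
      ∃ C : ℝ, ∀ s : ℝ, 1 < s → s < 2 → ∀ T : Finset ℕ,
        (∀ p ∈ T, p.Prime ∧ p ∉ N.primeFactors) →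
        ∑ p ∈ T, ‖ModularFormClass.qCoeff f p‖ ^ 2 * (p : ℝ) ^ (-s) ≤
          Real.log (1 / (s - 1)) + C)
    (hCheb : ∀ (G : Type) [Group G] [Fintype G] (π : Γℚ →* G), Function.Surjective π →
      GaloisFactorsThroughFiniteLevel π → ∀ w : G → ℝ, (∀ g, 0 ≤ w g) →
      (∀ g h : G, w (h * g * h⁻¹) = w g) → WeightedChebLower π N.primeFactors w) :
    ∃ ρ : Γℚ →* GL (Fin 2) ℂ, GaloisFactorsThroughFiniteLevel ρ ∧
      (Deformation.matrixRepresentation ρ).IsIrreducible ∧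
      ∀ p : ℕ, p.Prime → ¬ p ∣ N →
        ∀ A : ValuationSubring (AlgebraicClosure ℚ), A.LiesOverPrime p →
          (∀ σ ∈ A.inertiaSubgroupIn ℚ, ρ σ = 1) ∧
          ∀ σ : Γℚ, A.IsFrobeniusAt σ p →
            ((ρ σ : GL (Fin 2) ℂ) : Matrix (Fin 2) (Fin 2) ℂ).trace =
              ModularFormClass.qCoeff f p ∧
            ((ρ σ : GL (Fin 2) ℂ) : Matrix (Fin 2) (Fin 2) ℂ).det = ε (p : ZMod N) := by
  set a : ℕ → ℂ := fun n => ModularFormClass.qCoeff f n with ha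
  have hfgR : (Subalgebra.toSubmodule (coeffRing N a)).FG := coeffRing_fg ε a hT hf₁ hfg
  let R : Subring ℂ := (coeffRing N a).toSubring
  have hfin : Module.Finite ℤ R := by
    have h1 : Module.Finite ℤ (Subalgebra.toSubmodule (coeffRing N a)) :=
      Module.Finite.iff_fg.mpr hfgR
    exact h1
  have hR : ∀ p : ℕ, p.Prime → ¬ p ∣ N → ModularFormClass.qCoeff f p ∈ R := by
    intro p hp hpN
    exact Algebra.subset_adjoin ⟨p, hp, hpN, rfl⟩
  exact s48_of_gates N ε f R hR A hMod hRankin hCheb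

end Fermat.Agent.DS.N6
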