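/-
GATE-N / S48-(N6)-ADAPTERS (helper51): two one-lemma adapters between landed leaves.
* `upperLogDensityLE_of_sumBound`: helper38's density clause in `DS/N2/GatesFinal.gateSparse`
  (`∑_{p ∈ T} 1/p^s ≤ η log (C (1/(s-1)+1)) + C'`) ⟹ helper1's `N8.UpperLogDensityLE Xs η`.
* `log_mul_inv_add_one_le`: `log (C (1/(s-1)+1)) ≤ log (1/(s-1)) + (log C + log 2)` on `1 < s < 2`.
-/
import Mathlib
import Fermat.Agent.DS.N8.LogDensity

set_option autoImplicit false

namespace Fermat.Agent.DS.N6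

open Fermat.Agent.DS.N8

theorem log_mul_inv_add_one_le {C s : ℝ} (hC : 1 ≤ C) (hs1 : 1 < s) (hs2 : s < 2) :
    Real.log (C * (1 / (s - 1) + 1)) ≤ Real.log (1 / (s - 1)) + (Real.log C + Real.log 2) := by
  have h1 : 0 < s - 1 := by linarith
  have hC0 : 0 < C := by linarith
  have hs0 : 0 < s := by linarith
  have h2 : 0 < 1 / (s - 1) := by positivity
  have e : C * (1 / (s - 1) + 1) = C * (s * (1 / (s - 1))) := by
    field_simp
    ring
  rw [e, Real.log_mul hC0.ne' (mul_pos hs0 h2).ne', Real.log_mul hs0.ne' h2.ne']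
  have h3 : Real.log s ≤ Real.log 2 := Real.log_le_log hs0 hs2.le
  linarith

/-- helper38's finite-sum density clause implies helper1's `UpperLogDensityLE`. -/
theorem upperLogDensityLE_of_sumBound (Xs : Set ℕ) (η : ℝ) (hη : 0 ≤ η) (C : ℝ) (hC : 1 ≤ C)
    (C' : ℝ)
    (h : ∀ s : ℝ, 1 < s → ∀ T : Finset ℕ, (∀ p ∈ T, p.Prime ∧ p ∈ Xs) →
      ∑ p ∈ T, 1 / (p : ℝ) ^ s ≤ η * Real.log (C * (1 / (s - 1) + 1)) + C') :
    UpperLogDensityLE Xs η := by
  intro ε hε
  set K : ℝ := η * (Real.log C + Real.log 2) + C' with hK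
  refine ⟨min 1 (Real.exp (-K / ε)), lt_min one_pos (Real.exp_pos _), ?_⟩
  intro s hs1 hs2 T hT
  have hs3 : s < 2 := by
    have := min_le_left (1 : ℝ) (Real.exp (-K / ε))
    linarith
  have hs4 : s - 1 < Real.exp (-K / ε) := by
    have := min_le_right (1 : ℝ) (Real.exp (-K / ε))
    linarith
  have h1 : 0 < s - 1 := by linarith
  have hlog : K < ε * Real.log (1 / (s - 1)) := by
    have h2 : Real.log (s - 1) < -K / ε := (Real.log_lt_iff_lt_exp h1).mpr hs4
    rw [one_div, Real.log_inv]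
    have h3 : ε * Real.log (s - 1) < ε * (-K / ε) := mul_lt_mul_of_pos_left h2 hε
    have h4 : ε * (-K / ε) = -K := by field_simp
    linarith
  have hsum : ∑ p ∈ T, (p : ℝ) ^ (-s) = ∑ p ∈ T, 1 / (p : ℝ) ^ s := by
    refine Finset.sum_congr rfl fun p _ => ?_
    rw [Real.rpow_neg (Nat.cast_nonneg p), one_div]
  rw [hsum]
  have h5 := h s hs1 T hT
  have h6 := log_mul_inv_add_one_le hC hs1 hs3
  have h7 : η * Real.log (C * (1 / (s - 1) + 1)) ≤
      η * (Real.log (1 / (s - 1)) + (Real.log C + Real.log 2)) :=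
    mul_le_mul_of_nonneg_left h6 hη
  have h8 : η * (Real.log (1 / (s - 1)) + (Real.log C + Real.log 2)) + C' =
      η * Real.log (1 / (s - 1)) + K := by
    rw [hK]; ring
  have h9 : (η + ε) * Real.log (1 / (s - 1)) =
      η * Real.log (1 / (s - 1)) + ε * Real.log (1 / (s - 1)) := by ring
  rw [h9]
  linarith

end Fermat.Agent.DS.N6
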