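/-
S48 prep / (N6)-LIFT, abstract part (helper57).  Mathlib only.

**Approximate homomorphisms from a finite group of invertible order into a complete filtered ring
are close to exact homomorphisms.**

`R` a (non-commutative) ring with a multiplicative filtration `I 0 = ⊤ ⊇ I 1 ⊇ I 2 ⊇ …` by two-sided
ideals (presented as additive subgroups stable under left and right multiplication),
`I j * I k ⊆ I (j + k)`, separated and complete.  `G` a finite group whose order is a unit of `R`.
If `r : G → Rˣ` satisfies `r g * r h - r (g * h) ∈ I 1` for all `g h`, there is a group homomorphism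
`ρ : G →* Rˣ` with `ρ g - r g ∈ I 1` for all `g`.

Proof: the averaging operator `Φ r g = |G|⁻¹ ∑ₕ r (g h) (r h)⁻¹` improves an error in `I k`
to an error in `I (2k)`, and `Φ r - r ∈ I k`; iterate and pass to the limit.  No cohomology and no
quotient ring is used.
-/
import Mathlib

set_option autoImplicit false

namespace Fermat.Agent.DS.N6

open Finset

/-- A separated, complete multiplicative filtration of a ring by two-sided ideals. -/
structure Filt (R : Type*) [Ring R] where
  /-- the filtration steps -/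
  I : ℕ → AddSubgroup R
  zero_top : I 0 = ⊤
  anti : ∀ {j k : ℕ}, j ≤ k → I k ≤ I j
  mul_mem : ∀ {j k : ℕ} {a b : R}, a ∈ I j → b ∈ I k → a * b ∈ I (j + k)
  left_mem : ∀ {k : ℕ} (x : R) {a : R}, a ∈ I k → x * a ∈ I k
  right_mem : ∀ {k : ℕ} (x : R) {a : R}, a ∈ I k → a * x ∈ I k
  sep : ∀ a : R, (∀ k, a ∈ I k) → a = 0
  complete : ∀ x : ℕ → R, (∀ j, x (j + 1) - x j ∈ I j) → ∃ L : R, ∀ j, L - x j ∈ I j

namespace Filt

variable {R : Type*} [Ring R] (F : Filt R)

theorem pow_mem {a : R} (ha : a ∈ F.I 1) (j : ℕ) : a ^ j ∈ F.I j := by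
  induction j with
  | zero => rw [F.zero_top]; exact AddSubgroup.mem_top _
  | succ j ih => rw [pow_succ]; exact F.mul_mem ih ha

theorem sum_mem {ι : Type*} (s : Finset ι) (f : ι → R) {k : ℕ} (h : ∀ i ∈ s, f i ∈ F.I k) :
    ∑ i ∈ s, f i ∈ F.I k := (F.I k).sum_mem h

/-- `1 - a` is a unit for `a ∈ I 1` (geometric series). -/
theorem isUnit_one_sub {a : R} (ha : a ∈ F.I 1) : IsUnit (1 - a) := by
  obtain ⟨L, hL⟩ := F.complete (fun j => ∑ i ∈ range j, a ^ i) (fun j => by
    simp only [sum_range_succ, add_sub_cancel_left]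
    exact F.pow_mem ha j)
  have h1 : (1 - a) * L = 1 := by
    have : (1 - a) * L - 1 = 0 := by
      refine F.sep _ fun j => ?_
      have e : (1 - a) * L - 1 = (1 - a) * (L - ∑ i ∈ range j, a ^ i) - a ^ j := by
        have := mul_neg_geom_sum a j
        rw [mul_sub, this]; abel
      rw [e]
      exact (F.I j).sub_mem (F.left_mem _ (hL j)) (F.pow_mem ha j)
    exact sub_eq_zero.mp this
  have h2 : L * (1 - a) = 1 := by
    have : L * (1 - a) - 1 = 0 := by
      refine F.sep _ fun j => ?_
      have e : L * (1 - a) - 1 = (L - ∑ i ∈ range j, a ^ i) * (1 - a) - a ^ j := by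
        have := geom_sum_mul_neg a j
        rw [sub_mul, this]; abel
      rw [e]
      exact (F.I j).sub_mem (F.right_mem _ (hL j)) (F.pow_mem ha j)
    exact sub_eq_zero.mp this
  exact ⟨⟨1 - a, L, h1, h2⟩, rfl⟩

/-- a perturbation of a unit by an element of `I 1` is a unit -/
theorem isUnit_of_sub_mem (u : Rˣ) {y : R} (h : y - u ∈ F.I 1) : IsUnit y := by
  have e : y = u * (1 - (-(↑u⁻¹ * (y - u)))) := by
    rw [sub_neg_eq_add, mul_add, mul_one, ← mul_assoc, Units.mul_inv, one_mul]; abel
  rw [e]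
  exact u.isUnit.mul (F.isUnit_one_sub ((F.I 1).neg_mem (F.left_mem _ h)))

end Filt

section Average

variable {R : Type*} [Ring R] (F : Filt R) {G : Type*} [Group G] [Fintype G]

/-- the error of `r` at `(g, h)` -/
def err (r : G → Rˣ) (g h : G) : R := (r g : R) * r h - r (g * h)

/-- the correction term `δ(g) = ν ∑ₕ ε(g,h) r(h)⁻¹` (`ν` the inverse of `|G|`) -/
def delta (ν : R) (r : G → Rˣ) (g : G) : R := ν * ∑ h : G, err r g h * ↑(r h)⁻¹

/-- the averaged map `Φ r g = ν ∑ₕ r(gh) r(h)⁻¹` -/
def avg (ν : R) (r : G → Rˣ) (g : G) : R := ν * ∑ h : G, (r (g * h) : R) * ↑(r h)⁻¹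

variable {F}
variable {ν : R} (hν : ν * (Fintype.card G : R) = 1)

include hν in
theorem avg_eq (r : G → Rˣ) (g : G) : avg ν r g = r g - delta ν r g := by
  unfold avg delta err
  have : ∀ h : G, (r (g * h) : R) * ↑(r h)⁻¹ =
      (r g : R) - ((r g : R) * r h - r (g * h)) * ↑(r h)⁻¹ := by
    intro h
    rw [sub_mul, mul_assoc, Units.mul_inv, mul_one]; abel
  rw [Finset.sum_congr rfl fun h _ => this h, Finset.sum_sub_distrib, Finset.sum_const,
    Finset.card_univ, nsmul_eq_mul, mul_sub, ← mul_assoc, hν, one_mul]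

theorem delta_mem {k : ℕ} {r : G → Rˣ} (he : ∀ g h, err r g h ∈ F.I k) (g : G) :
    delta ν r g ∈ F.I k :=
  F.left_mem _ (F.sum_mem _ _ fun h _ => F.right_mem _ (he g h))

omit [Fintype G] in
/-- the exact associativity identity for the error -/
theorem err_assoc (r : G → Rˣ) (g g' h : G) :
    err r (g * g') h + err r g g' * r h = err r g (g' * h) + r g * err r g' h := by
  unfold err
  rw [mul_assoc g g' h]
  noncomm_ring

include hν in
/-- averaged associativity: `δ(gg') + ε(g,g') = ν ∑ₕ ε(g,g'h) r(h)⁻¹ + r(g) δ(g')` -/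
theorem delta_assoc (r : G → Rˣ) (g g' : G) :
    delta ν r (g * g') + err r g g' =
      ν * ∑ h : G, err r g (g' * h) * ↑(r h)⁻¹ + r g * delta ν r g' := by
  have hc : ∀ x : R, (r g : R) * (ν * x) = ν * ((r g : R) * x) := by
    intro x
    have hcomm : Commute (r g : R) ν := by
      have h1 : Commute (r g : R) (Fintype.card G : R) := (Nat.cast_commute _ _).symm
      -- `ν` is the inverse of a central element
      have hν' : (Fintype.card G : R) * ν = 1 := by
        have : ν * ((Fintype.card G : R) * ν) = ν := by rw [← mul_assoc, hν, one_mul]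
        have h2 : (Fintype.card G : R) * ν = (Fintype.card G : R) * ν * (ν * (Fintype.card G : R)) := by
          rw [hν, mul_one]
        calc (Fintype.card G : R) * ν = (Fintype.card G : R) * (ν * ((Fintype.card G : R) * ν)) := by
              rw [this]
          _ = ((Fintype.card G : R) * ν) * ((Fintype.card G : R) * ν) := by rw [mul_assoc]
          _ = (ν * (Fintype.card G : R)) * ((Fintype.card G : R) * ν) := by
              rw [(Nat.cast_commute (Fintype.card G) ν).eq]
          _ = 1 * ((Fintype.card G : R) * ν) := by rw [hν]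
          _ = (Fintype.card G : R) * ν := one_mul _
          _ = 1 := by
              have h3 := (Nat.cast_commute (Fintype.card G) ν).eq
              rw [h3, hν]
      calc (r g : R) * ν = (ν * (Fintype.card G : R)) * ((r g : R) * ν) := by rw [hν, one_mul]
        _ = ν * ((r g : R) * ((Fintype.card G : R) * ν)) := by
            rw [mul_assoc, ← mul_assoc (Fintype.card G : R), ← h1.eq, mul_assoc]
        _ = ν * (r g : R) := by rw [hν', mul_one]
    rw [← mul_assoc, hcomm.eq, mul_assoc]
  have key : ∀ h : G, err r (g * g') h * ↑(r h)⁻¹ + err r g g' =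
      err r g (g' * h) * ↑(r h)⁻¹ + r g * (err r g' h * ↑(r h)⁻¹) := by
    intro h
    have := congrArg (fun x => x * ((r h)⁻¹ : Rˣ).val) (err_assoc r g g' h)
    simp only [add_mul, mul_assoc, Units.mul_inv, mul_one] at this
    exact this
  unfold delta
  rw [hc, Finset.mul_sum (s := univ) (a := (r g : R)), ← mul_add, ← Finset.sum_add_distrib]
  have hsum : ∑ h : G, (err r (g * g') h * ↑(r h)⁻¹ + err r g g') =
      ∑ h : G, (err r g (g' * h) * ↑(r h)⁻¹ + (r g : R) * (err r g' h * ↑(r h)⁻¹)) :=
    Finset.sum_congr rfl fun h _ => key h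
  rw [← hsum, Finset.sum_add_distrib, Finset.sum_const, Finset.card_univ, nsmul_eq_mul, mul_add,
    ← mul_assoc ν, hν, one_mul]

/-- reindexing `h ↦ g' h` -/
theorem sum_reindex (r : G → Rˣ) (g g' : G) :
    ∑ h : G, err r g (g' * h) * ↑(r h)⁻¹ = ∑ h' : G, err r g h' * ↑(r (g'⁻¹ * h'))⁻¹ := by
  refine Fintype.sum_equiv (Equiv.mulLeft g') _ _ fun h => ?_
  simp only [Equiv.coe_mulLeft, inv_mul_cancel_left]

omit [Fintype G] in
/-- `r(g'⁻¹h')⁻¹ ≡ r(h')⁻¹ r(g')` modulo the error ideal -/
theorem inv_sub_mem {k : ℕ} {r : G → Rˣ} (he : ∀ g h, err r g h ∈ F.I k) (g' h' : G) :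
    (↑(r (g'⁻¹ * h'))⁻¹ : R) - ↑(r h')⁻¹ * r g' ∈ F.I k := by
  have e : (↑(r (g'⁻¹ * h'))⁻¹ : R) - ↑(r h')⁻¹ * r g' =
      -(↑(r h')⁻¹ * err r g' (g'⁻¹ * h') * ↑(r (g'⁻¹ * h'))⁻¹) := by
    unfold err
    rw [mul_inv_cancel_left, mul_sub, sub_mul, mul_assoc, mul_assoc, Units.mul_inv, mul_one,
      Units.inv_mul, one_mul]
    abel
  rw [e]
  exact (F.I k).neg_mem (F.right_mem _ (F.left_mem _ (he _ _)))

include hν in
/-- **the averaging step**: an error in `I k` becomes an error in `I (k + k)` -/
theorem err_avg_mem {k : ℕ} {r r' : G → Rˣ} (he : ∀ g h, err r g h ∈ F.I k)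
    (hr' : ∀ g, (r' g : R) = avg ν r g) (g g' : G) : err r' g g' ∈ F.I (k + k) := by
  set A : R := ν * ∑ h : G, err r g (g' * h) * ↑(r h)⁻¹ with hA
  have hassoc := delta_assoc hν r g g'
  rw [← hA] at hassoc
  have hA' : A = delta ν r (g * g') + err r g g' - r g * delta ν r g' :=
    eq_sub_of_add_eq hassoc.symm
  have h1 : err r' g g' = (A - delta ν r g * r g') + delta ν r g * delta ν r g' := by
    rw [hA']
    unfold err
    rw [hr', hr', hr', avg_eq hν, avg_eq hν, avg_eq hν]
    noncomm_ring
  rw [h1]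
  refine (F.I (k + k)).add_mem ?_ (F.mul_mem (delta_mem he g) (delta_mem he g'))
  have h2 : A - delta ν r g * r g' =
      ν * ∑ h' : G, err r g h' * ((↑(r (g'⁻¹ * h'))⁻¹ : R) - ↑(r h')⁻¹ * r g') := by
    rw [hA, sum_reindex]
    unfold delta
    rw [mul_assoc, Finset.sum_mul, ← mul_sub, ← Finset.sum_sub_distrib]
    congr 1
    refine Finset.sum_congr rfl fun h' _ => ?_
    simp only [mul_sub, mul_assoc]
  rw [h2]
  exact F.left_mem _ (F.sum_mem _ _ fun h' _ => F.mul_mem (he g h') (inv_sub_mem he g' h'))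

/-- one step of the iteration, as a total function -/
noncomputable def next (ν : R) (r : G → Rˣ) (g : G) : Rˣ := by
  classical exact if h : IsUnit (avg ν r g) then h.unit else r g

include hν in
theorem next_spec {k : ℕ} (hk : 1 ≤ k) {r : G → Rˣ} (he : ∀ g h, err r g h ∈ F.I k) :
    (∀ g, (next ν r g : R) = avg ν r g) ∧ (∀ g, (next ν r g : R) - r g ∈ F.I k) ∧
      ∀ g h, err (next ν r) g h ∈ F.I (k + k) := by
  have hsub : ∀ g, avg ν r g - r g ∈ F.I k := by
    intro g
    rw [avg_eq hν, sub_sub_cancel_left]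
    exact (F.I k).neg_mem (delta_mem he g)
  have hunit : ∀ g, IsUnit (avg ν r g) := fun g =>
    F.isUnit_of_sub_mem (r g) (F.anti hk (hsub g))
  have hval : ∀ g, (next ν r g : R) = avg ν r g := by
    intro g
    unfold next
    rw [dif_pos (hunit g)]
    exact (hunit g).unit_spec
  refine ⟨hval, fun g => ?_, fun g h => err_avg_mem hν he hval g h⟩
  rw [hval]
  exact hsub g

include hν in
/-- **Approximate homomorphisms are close to homomorphisms.** -/
theorem exists_monoidHom_of_err_mem (F : Filt R) (r : G → Rˣ) (he : ∀ g h, err r g h ∈ F.I 1) :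
    ∃ ρ : G →* Rˣ, ∀ g, ((ρ g : Rˣ) : R) - r g ∈ F.I 1 := by
  -- the sequence of iterates
  set rs : ℕ → G → Rˣ := fun j => (next ν)^[j] r with hrs
  have hsucc : ∀ j, rs (j + 1) = next ν (rs j) := fun j => by
    simp only [hrs, Function.iterate_succ_apply']
  have hinv : ∀ j, ∀ g h, err (rs j) g h ∈ F.I (j + 1) := by
    intro j
    induction j with
    | zero => simpa [hrs] using he
    | succ j ih =>
      intro g h
      rw [hsucc]
      exact F.anti (by omega) ((next_spec hν (by omega) ih).2.2 g h)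
  have hstep : ∀ j g, ((rs (j + 1) g : Rˣ) : R) - rs j g ∈ F.I (j + 1) := by
    intro j g
    rw [hsucc]
    exact (next_spec hν (by omega) (hinv j)).2.1 g
  -- the limit
  have hlim : ∀ g, ∃ L : R, ∀ j, L - rs j g ∈ F.I j := fun g =>
    F.complete (fun j => (rs j g : R)) fun j => F.anti (Nat.le_succ j) (hstep j g)
  choose L hL using hlim
  have hLunit : ∀ g, IsUnit (L g) := fun g => F.isUnit_of_sub_mem (rs 1 g) (hL g 1)
  have hLmul : ∀ g h, L (g * h) = L g * L h := by
    intro g h
    have : L g * L h - L (g * h) = 0 := by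
      refine F.sep _ fun j => ?_
      have e : L g * L h - L (g * h) =
          (L g - rs j g) * L h + rs j g * (L h - rs j h) + err (rs j) g h -
            (L (g * h) - rs j (g * h)) := by
        unfold err
        noncomm_ring
      rw [e]
      refine (F.I j).sub_mem ((F.I j).add_mem ((F.I j).add_mem (F.right_mem _ (hL g j))
        (F.left_mem _ (hL h j))) (F.anti (Nat.le_succ j) (hinv j g h))) (hL (g * h) j)
    exact (sub_eq_zero.mp this).symm
  refine ⟨MonoidHom.mk' (fun g => (hLunit g).unit) fun g h => Units.ext ?_, fun g => ?_⟩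
  · simp only [Units.val_mul, IsUnit.unit_spec]
    exact hLmul g h
  · have e : (((MonoidHom.mk' (fun g => (hLunit g).unit) fun g h => Units.ext (by
        simp only [Units.val_mul, IsUnit.unit_spec]; exact hLmul g h)) g : Rˣ) : R) = L g :=
      (hLunit g).unit_spec
    have e2 : L g - r g = (L g - rs 1 g) + ((rs 1 g : R) - rs 0 g) := by
      simp only [hrs, Function.iterate_zero, id_eq]
      abel
    show ((hLunit g).unit : R) - r g ∈ F.I 1
    rw [(hLunit g).unit_spec, e2]
    exact (F.I 1).add_mem (hL g 1) (hstep 0 g)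

end Average

end Fermat.Agent.DS.N6
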