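/-
GATE-N / S48-(N6)-SEMIS (helper51; gap (g5) of board 3384, twin-safe: namespace `DS.N6`):
**semisimplification in dimension 2.**  Every `ρ : Γ →* GL₂(K)` (`K` a field, `Γ` any group) has a
companion `ρ' : Γ →* GL₂(K)` with the same trace and determinant at every element, trivial
wherever `ρ` is, and `IsSemisimpleGL2 ρ'.range` (helper6's predicate): if `ρ` is not already
semisimple it has a common eigenvector `v`, with eigencharacter `c`, and `ρ' = diag(c, det ρ / c)`.
-/
import Mathlib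
import Fermat.Agent.DS.N4.Semisimple

set_option autoImplicit false

namespace Fermat.Agent.DS.N6

open Matrix Fermat.Agent.DS.N4

/-- an eigenvalue of a `2 × 2` matrix is a root of `c² - tr·c + det`. -/
theorem eigen_quadratic {K : Type*} [Field K] (A : Matrix (Fin 2) (Fin 2) K) (v : Fin 2 → K)
    (hv : v ≠ 0) (c : K) (hc : A *ᵥ v = c • v) : c * c - A.trace * c + A.det = 0 := by
  have h0 : (A - c • (1 : Matrix (Fin 2) (Fin 2) K)).det = 0 := by
    apply Matrix.exists_mulVec_eq_zero_iff.mp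
    refine ⟨v, hv, ?_⟩
    rw [Matrix.sub_mulVec, hc, Matrix.smul_mulVec, Matrix.one_mulVec, sub_self]
  rw [Matrix.det_fin_two] at h0
  simp only [Matrix.sub_apply, Matrix.smul_apply, Matrix.one_apply_eq, smul_eq_mul, mul_one,
    Matrix.one_apply_ne (show (0 : Fin 2) ≠ 1 by decide),
    Matrix.one_apply_ne (show (1 : Fin 2) ≠ 0 by decide), mul_zero, sub_zero] at h0
  rw [Matrix.trace_fin_two, Matrix.det_fin_two]
  linear_combination h0

/-- the diagonal representation attached to two characters with values in `K \ {0}`. -/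
noncomputable def diagRep {Γ : Type*} [Group Γ] {K : Type*} [Field K] (c e : Γ → K)
    (hc : ∀ γ δ, c (γ * δ) = c γ * c δ) (he : ∀ γ δ, e (γ * δ) = e γ * e δ)
    (hc0 : ∀ γ, c γ ≠ 0) (he0 : ∀ γ, e γ ≠ 0) : Γ →* GL (Fin 2) K :=
  MonoidHom.mk' (fun γ => Matrix.GeneralLinearGroup.mkOfDetNeZero (Matrix.diagonal ![c γ, e γ])
    (by
      rw [Matrix.det_diagonal, Fin.prod_univ_two]
      exact mul_ne_zero (hc0 γ) (he0 γ)))
    (by
      intro γ δ
      apply Units.ext
      show Matrix.diagonal ![c (γ * δ), e (γ * δ)] =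
        Matrix.diagonal ![c γ, e γ] * Matrix.diagonal ![c δ, e δ]
      rw [Matrix.diagonal_mul_diagonal, hc, he]
      congr 1
      ext i
      fin_cases i <;> simp)

theorem diagRep_val {Γ : Type*} [Group Γ] {K : Type*} [Field K] (c e : Γ → K)
    (hc : ∀ γ δ, c (γ * δ) = c γ * c δ) (he : ∀ γ δ, e (γ * δ) = e γ * e δ)
    (hc0 : ∀ γ, c γ ≠ 0) (he0 : ∀ γ, e γ ≠ 0) (γ : Γ) :
    ((diagRep c e hc he hc0 he0 γ : GL (Fin 2) K) : Matrix (Fin 2) (Fin 2) K) =
      Matrix.diagonal ![c γ, e γ] := rfl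

/-- **Semisimplification in dimension 2** (gap (g5)). -/
theorem exists_semisimplification {Γ : Type*} [Group Γ] {K : Type*} [Field K]
    (ρ : Γ →* GL (Fin 2) K) :
    ∃ ρ' : Γ →* GL (Fin 2) K, IsSemisimpleGL2 ρ'.range ∧
      (∀ γ : Γ, ((ρ' γ : GL (Fin 2) K) : Matrix (Fin 2) (Fin 2) K).trace =
          ((ρ γ : GL (Fin 2) K) : Matrix (Fin 2) (Fin 2) K).trace ∧
        ((ρ' γ : GL (Fin 2) K) : Matrix (Fin 2) (Fin 2) K).det =
          ((ρ γ : GL (Fin 2) K) : Matrix (Fin 2) (Fin 2) K).det) ∧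
      ∀ γ : Γ, ρ γ = 1 → ρ' γ = 1 := by
  classical
  by_cases hss : IsSemisimpleGL2 ρ.range
  · exact ⟨ρ, hss, fun _ => ⟨rfl, rfl⟩, fun _ h => h⟩
  -- a common eigenvector
  unfold IsSemisimpleGL2 at hss
  push_neg at hss
  obtain ⟨v, hv0, hv, -⟩ := hss
  have hv' : ∀ γ : Γ, ∃ c : K, (ρ γ).1 *ᵥ v = c • v := fun γ => hv (ρ γ) ⟨γ, rfl⟩
  choose c hc using hv'
  have hinj : Function.Injective (fun a : K => a • v) := smul_left_injective K hv0
  have hc_mul : ∀ γ δ, c (γ * δ) = c γ * c δ := by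
    intro γ δ
    apply hinj
    show c (γ * δ) • v = (c γ * c δ) • v
    rw [← hc (γ * δ), map_mul]
    have : ((ρ γ * ρ δ : GL (Fin 2) K) : Matrix (Fin 2) (Fin 2) K) = (ρ γ).1 * (ρ δ).1 := rfl
    rw [this, ← Matrix.mulVec_mulVec, hc δ, Matrix.mulVec_smul, hc γ, smul_smul, mul_comm]
  have hc_one : c 1 = 1 := by
    apply hinj
    show c 1 • v = (1 : K) • v
    rw [← hc 1, map_one, one_smul]
    exact Matrix.one_mulVec v
  have hc0 : ∀ γ, c γ ≠ 0 := by
    intro γ h0
    have := hc_mul γ γ⁻¹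
    rw [mul_inv_cancel, hc_one, h0, zero_mul] at this
    exact one_ne_zero this
  set d : Γ → K := fun γ => (ρ γ).1.det with hd
  have hd_mul : ∀ γ δ, d (γ * δ) = d γ * d δ := by
    intro γ δ
    show (ρ (γ * δ)).1.det = (ρ γ).1.det * (ρ δ).1.det
    rw [map_mul]
    exact Matrix.det_mul _ _
  have hd0 : ∀ γ, d γ ≠ 0 := by
    intro γ
    have h := (Matrix.isUnit_iff_isUnit_det _).mp (ρ γ).isUnit
    exact h.ne_zero
  set e : Γ → K := fun γ => d γ / c γ with he
  have he_mul : ∀ γ δ, e (γ * δ) = e γ * e δ := by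
    intro γ δ
    show d (γ * δ) / c (γ * δ) = d γ / c γ * (d δ / c δ)
    rw [hd_mul, hc_mul, mul_div_mul_comm]
  have he0 : ∀ γ, e γ ≠ 0 := fun γ => div_ne_zero (hd0 γ) (hc0 γ)
  have htr : ∀ γ, (ρ γ).1.trace = c γ + e γ := by
    intro γ
    have hq := eigen_quadratic (ρ γ).1 v hv0 (c γ) (hc γ)
    show (ρ γ).1.trace = c γ + (ρ γ).1.det / c γ
    field_simp [hc0 γ]
    linear_combination -hq
  refine ⟨diagRep c e hc_mul he_mul hc0 he0, ?_, ?_, ?_⟩
  · apply isSemisimpleGL2_of_diagonal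
    rintro _ ⟨γ, rfl⟩
    rw [diagRep_val]
    constructor
    · exact Matrix.diagonal_apply_ne _ (by decide)
    · exact Matrix.diagonal_apply_ne _ (by decide)
  · intro γ
    rw [diagRep_val, Matrix.trace_diagonal, Matrix.det_diagonal, Fin.sum_univ_two,
      Fin.prod_univ_two]
    simp only [Matrix.cons_val_zero, Matrix.cons_val_one]
    refine ⟨(htr γ).symm, ?_⟩
    show c γ * (d γ / c γ) = d γ
    field_simp [hc0 γ]
  · intro γ hγ
    have h1 : c γ = 1 := by
      apply hinj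
      show c γ • v = (1 : K) • v
      rw [← hc γ, hγ, one_smul]
      exact Matrix.one_mulVec v
    have h2 : e γ = 1 := by
      show (ρ γ).1.det / c γ = 1
      rw [hγ, h1, div_one]
      exact Matrix.det_one
    apply Units.ext
    rw [diagRep_val, h1, h2]
    show Matrix.diagonal ![(1 : K), 1] = 1
    rw [← Matrix.diagonal_one]
    congr 1
    ext i
    fin_cases i <;> simp

end Fermat.Agent.DS.N6
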