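/-
GATE-N / S48-(N6)-BOUND (helper51; hypothesis form of S48-TOP steps (1)–(3), board 3384):
**BoundedModL ⟸ GateModL' (semisimple) + GateSparse + Chebotarev (helper1 (O3)) + helper6 grp_gate.**

For `ℓ > 4 M` the image `G` of a semisimple `ρbar : G_ℚ → GL₂(𝔽_ℓ)` whose Frobenius traces at the
primes `p ∉ Xs` (`Xs` of upper logarithmic density `≤ η < 1/2`) take at most `|Ya|` values and whose
Frobenius determinants take at most `|Ye|` values has order `≤ 120 M / (1 - 2η)`,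
`M = |Ya| · |Ye|`: the elements of `G` that are NOT conjugate to such a Frobenius value form a
conjugation-stable set `C` with `|C| ≤ η |G|` (Chebotarev), the others carry at most `M`
characteristic polynomials, and `grp_gate_card_le` applies.
-/
import Mathlib
import Fermat.Prelude.Def_GaloisRep_Residual
import Fermat.Agent.DS.N4.Main
import Fermat.Agent.DS.N8.ChebAdapter
import Fermat.Agent.DS.N6.Semis

set_option autoImplicit false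

open NumberField Polynomial

namespace Fermat.Agent.DS.N6

local notation "Γℚ" => (AlgebraicClosure ℚ ≃ₐ[ℚ] AlgebraicClosure ℚ)

open Fermat.Agent.DS.N4 Fermat.Agent.DS.N8

/-- **The uniform bound for one `ρbar`.** -/
theorem card_range_le_of_sparse (hin : ChebInputs) (N : ℕ) (hN : N ≠ 0) {O : Type*} [CommRing O]
    (a' e' : ℕ → O) (Ya Ye : Finset O) (Xs : Set ℕ) (η : ℝ) (hη0 : 0 ≤ η) (hη : η < 1 / 2)
    (hX : UpperLogDensityLE Xs η)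
    (hYa : ∀ p : ℕ, p.Prime → ¬ p ∣ N → p ∉ Xs → a' p ∈ Ya)
    (hYe : ∀ p : ℕ, p.Prime → ¬ p ∣ N → e' p ∈ Ye)
    (ℓ : ℕ) [Fact ℓ.Prime] (hℓM : 4 * (Ya.card * Ye.card) < ℓ) (φ : O →+* ZMod ℓ)
    (ρbar : Γℚ →* GL (Fin 2) (ZMod ℓ)) (hfin : GaloisFactorsThroughFiniteLevel ρbar)
    (hss : IsSemisimpleGL2 ρbar.range)
    (hloc : ∀ p : ℕ, p.Prime → ¬ p ∣ N → p ≠ ℓ →
      ∀ V : ValuationSubring (AlgebraicClosure ℚ), V.LiesOverPrime p →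
        ∀ τ : Γℚ, V.IsFrobeniusAt τ p →
          ((ρbar τ : GL (Fin 2) (ZMod ℓ)) : Matrix (Fin 2) (Fin 2) (ZMod ℓ)).trace = φ (a' p) ∧
          ((ρbar τ : GL (Fin 2) (ZMod ℓ)) : Matrix (Fin 2) (Fin 2) (ZMod ℓ)).det = φ (e' p)) :
    (Nat.card ρbar.range : ℝ) ≤ 120 * ((Ya.card * Ye.card : ℕ) : ℝ) / (1 - 2 * η) := by
  classical
  set G : Subgroup (GL (Fin 2) (ZMod ℓ)) := ρbar.range with hG
  set π : Γℚ →* G := ρbar.rangeRestrict with hπ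
  have hπsurj : Function.Surjective π := ρbar.rangeRestrict_surjective
  have hπfin : GaloisFactorsThroughFiniteLevel π := by
    obtain ⟨L, hL, h⟩ := hfin
    exact ⟨L, hL, fun σ hσ => Subtype.ext (h σ hσ)⟩
  set B : Finset ℕ := insert ℓ N.primeFactors with hB
  -- the elements conjugate to a good Frobenius value
  set Hgood : Set G := {g | ∃ p : ℕ, p.Prime ∧ p ∉ B ∧ p ∉ Xs ∧
    ∃ (V : ValuationSubring (AlgebraicClosure ℚ)) (τ : Γℚ), V.LiesOverPrime p ∧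
      V.IsFrobeniusAt τ p ∧ ∃ h : G, g = h * π τ * h⁻¹} with hHgood
  have hCstable : ∀ g h : G, g ∈ Hgoodᶜ → h * g * h⁻¹ ∈ Hgoodᶜ := by
    intro g h hg hcon
    apply hg
    obtain ⟨p, hp, hpB, hpX, V, τ, hV, hτ, k, hk⟩ := hcon
    refine ⟨p, hp, hpB, hpX, V, τ, hV, hτ, h⁻¹ * k, ?_⟩
    have : g = h⁻¹ * (h * g * h⁻¹) * h := by group
    rw [this, hk]
    group
  have hC : ((Hgoodᶜ).ncard : ℝ) ≤ η * (Nat.card G : ℝ) := by
    refine card_le_of_frob_subset hin π hπfin hπsurj Hgoodᶜ hCstable B Xs η hX ?_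
    rintro p hp hpB ⟨V, τ, hV, hτ, hmem⟩
    by_contra hpX
    exact hmem ⟨p, hp, hpB, hpX, V, τ, hV, hτ, 1, by simp⟩
  have hcardG : (Hgood.ncard : ℝ) + ((Hgoodᶜ).ncard : ℝ) = (Nat.card G : ℝ) := by
    have := Set.ncard_add_ncard_compl Hgood
    exact_mod_cast this
  -- transport to `GL₂`
  set H : Set (GL (Fin 2) (ZMod ℓ)) := Subtype.val '' Hgood with hH
  have hHG : H ⊆ (G : Set (GL (Fin 2) (ZMod ℓ))) := by
    rintro _ ⟨g, -, rfl⟩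
    exact g.2
  have hHcard : H.ncard = Hgood.ncard := Set.ncard_image_of_injective _ Subtype.val_injective
  have hHbig : (1 - η) * (Nat.card G : ℝ) ≤ (H.ncard : ℝ) := by
    rw [hHcard]
    linarith
  -- the characteristic polynomials on `H`
  have hM : ((fun g : GL (Fin 2) (ZMod ℓ) => g.1.charpoly) '' H).ncard ≤ Ya.card * Ye.card := by
    let F : O × O → (ZMod ℓ)[X] := fun yu => X ^ 2 - C (φ yu.1) * X + C (φ yu.2)
    have hsub : ((fun g : GL (Fin 2) (ZMod ℓ) => g.1.charpoly) '' H) ⊆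
        ((Ya ×ˢ Ye).image F : Finset (ZMod ℓ)[X]) := by
      rintro _ ⟨_, ⟨g, ⟨p, hp, hpB, hpX, V, τ, hV, hτ, k, hk⟩, rfl⟩, rfl⟩
      have hpℓ : p ≠ ℓ := fun h => hpB (by rw [h]; exact Finset.mem_insert_self _ _)
      have hpN : ¬ p ∣ N := fun hd => hpB (Finset.mem_insert_of_mem
        (Nat.mem_primeFactors.mpr ⟨hp, hd, hN⟩))
      obtain ⟨htr, hdet⟩ := hloc p hp hpN hpℓ V hV τ hτ
      have hconj : ((g : G) : GL (Fin 2) (ZMod ℓ)) =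
          (k : GL (Fin 2) (ZMod ℓ)) * ρbar τ * (k : GL (Fin 2) (ZMod ℓ))⁻¹ := by
        rw [hk]; rfl
      have hcp : ((g : G) : GL (Fin 2) (ZMod ℓ)).1.charpoly = (ρbar τ).1.charpoly := by
        rw [hconj, Matrix.charpoly_fin_two, Matrix.charpoly_fin_two]
        have h1 : ((((k : GL (Fin 2) (ZMod ℓ)) * ρbar τ * (k : GL (Fin 2) (ZMod ℓ))⁻¹ :
            GL (Fin 2) (ZMod ℓ)) : Matrix (Fin 2) (Fin 2) (ZMod ℓ))) =
            (k : GL (Fin 2) (ZMod ℓ)).1 * (ρbar τ).1 * ((k : GL (Fin 2) (ZMod ℓ))⁻¹).1 := rfl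
        rw [h1, Matrix.trace_mul_comm, Matrix.det_mul, Matrix.det_mul]
        have h2 : ((k : GL (Fin 2) (ZMod ℓ))⁻¹).1 * ((k : GL (Fin 2) (ZMod ℓ)).1 * (ρbar τ).1) =
            (ρbar τ).1 := by
          rw [← mul_assoc]
          have : ((k : GL (Fin 2) (ZMod ℓ))⁻¹).1 * (k : GL (Fin 2) (ZMod ℓ)).1 = 1 := by
            rw [← Units.val_mul, inv_mul_cancel, Units.val_one]
          rw [this, one_mul]
        have h3 : (k : GL (Fin 2) (ZMod ℓ)).1.det * ((k : GL (Fin 2) (ZMod ℓ))⁻¹).1.det = 1 := by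
          rw [← Matrix.det_mul, ← Units.val_mul, mul_inv_cancel, Units.val_one, Matrix.det_one]
        rw [h2]
        have h4 : (k : GL (Fin 2) (ZMod ℓ)).1.det * (ρbar τ).1.det *
            ((k : GL (Fin 2) (ZMod ℓ))⁻¹).1.det = (ρbar τ).1.det := by
          rw [mul_comm ((k : GL (Fin 2) (ZMod ℓ)).1.det), mul_assoc, h3, mul_one]
        rw [h4]
      simp only [Finset.coe_image, Set.mem_image, Finset.mem_coe, Finset.mem_product]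
      refine ⟨(a' p, e' p), ⟨hYa p hp hpN hpX, hYe p hp hpN⟩, ?_⟩
      show F (a' p, e' p) = ((g : G) : GL (Fin 2) (ZMod ℓ)).1.charpoly
      rw [hcp, Matrix.charpoly_fin_two, htr, hdet]
    calc ((fun g : GL (Fin 2) (ZMod ℓ) => g.1.charpoly) '' H).ncard
        ≤ ((((Ya ×ˢ Ye).image F : Finset (ZMod ℓ)[X])) : Set (ZMod ℓ)[X]).ncard :=
          Set.ncard_le_ncard hsub (Finset.finite_toSet _)
      _ = ((Ya ×ˢ Ye).image F).card := Set.ncard_coe_finset _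
      _ ≤ (Ya ×ˢ Ye).card := Finset.card_image_le
      _ = Ya.card * Ye.card := Finset.card_product _ _
  exact grp_gate_card_le ℓ G hss H hHG (Ya.card * Ye.card) hM η hη0 hη hHbig hℓM

/-- **BoundedModL ⟸ GateModL' (semisimple) + GateSparse + Chebotarev + grp_gate** (S48-TOP board
3384, (B) ⟹ (C)), for an abstract coefficient ring `O`. -/
theorem boundedModL_of_sparse (hin : ChebInputs) (N : ℕ) (hN : N ≠ 0) {O : Type*} [CommRing O]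
    (a' e' : ℕ → O) (Ya Ye : Finset O) (Xs : Set ℕ) (η : ℝ) (hη0 : 0 ≤ η) (hη : η < 1 / 2)
    (hX : UpperLogDensityLE Xs η)
    (hYa : ∀ p : ℕ, p.Prime → ¬ p ∣ N → p ∉ Xs → a' p ∈ Ya)
    (hYe : ∀ p : ℕ, p.Prime → ¬ p ∣ N → e' p ∈ Ye)
    (A : ℕ) (hA : 120 * ((Ya.card * Ye.card : ℕ) : ℝ) / (1 - 2 * η) ≤ (A : ℝ))
    (ℓ₀ : ℕ)
    (H : ∀ (ℓ : ℕ) [Fact ℓ.Prime], ℓ₀ ≤ ℓ → ¬ ℓ ∣ N → ∀ φ : O →+* ZMod ℓ,
      ∃ ρbar : Γℚ →* GL (Fin 2) (ZMod ℓ), GaloisFactorsThroughFiniteLevel ρbar ∧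
        IsSemisimpleGL2 ρbar.range ∧
        ∀ p : ℕ, p.Prime → ¬ p ∣ N → p ≠ ℓ →
          ∀ V : ValuationSubring (AlgebraicClosure ℚ), V.LiesOverPrime p →
            (∀ σ ∈ V.inertiaSubgroupIn ℚ, ρbar σ = 1) ∧
            ∀ τ : Γℚ, V.IsFrobeniusAt τ p →
              ((ρbar τ : GL (Fin 2) (ZMod ℓ)) : Matrix (Fin 2) (Fin 2) (ZMod ℓ)).trace =
                φ (a' p) ∧
              ((ρbar τ : GL (Fin 2) (ZMod ℓ)) : Matrix (Fin 2) (Fin 2) (ZMod ℓ)).det =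
                φ (e' p)) :
    ∀ ℓ : ℕ, ℓ.Prime → max ℓ₀ (4 * (Ya.card * Ye.card) + 1) ≤ ℓ → ¬ ℓ ∣ N →
      ∀ φ : O →+* ZMod ℓ,
      ∃ ρbar : Γℚ →* GL (Fin 2) (ZMod ℓ), GaloisFactorsThroughFiniteLevel ρbar ∧
        Nat.card ρbar.range ≤ A ∧
        ∀ p : ℕ, p.Prime → ¬ p ∣ N → p ≠ ℓ →
          ∀ V : ValuationSubring (AlgebraicClosure ℚ), V.LiesOverPrime p →
            (∀ σ ∈ V.inertiaSubgroupIn ℚ, ρbar σ = 1) ∧
            ∀ τ : Γℚ, V.IsFrobeniusAt τ p →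
              ((ρbar τ : GL (Fin 2) (ZMod ℓ)) : Matrix (Fin 2) (Fin 2) (ZMod ℓ)).trace =
                φ (a' p) ∧
              ((ρbar τ : GL (Fin 2) (ZMod ℓ)) : Matrix (Fin 2) (Fin 2) (ZMod ℓ)).det =
                φ (e' p) := by
  intro ℓ hℓ hℓmax hℓN φ
  have h1 : ℓ₀ ≤ ℓ := le_trans (le_max_left _ _) hℓmax
  have h2 : 4 * (Ya.card * Ye.card) < ℓ := by
    have := le_trans (le_max_right _ _) hℓmax
    omega
  have : Fact ℓ.Prime := ⟨hℓ⟩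
  obtain ⟨ρbar, hfin, hss, hloc⟩ := H ℓ h1 hℓN φ
  have h3 : (Nat.card ρbar.range : ℝ) ≤ 120 * ((Ya.card * Ye.card : ℕ) : ℝ) / (1 - 2 * η) :=
    card_range_le_of_sparse hin N hN a' e' Ya Ye Xs η hη0 hη hX hYa hYe ℓ h2 φ ρbar hfin
      hss (fun p hp hpN hpℓ V hV τ hτ => (hloc p hp hpN hpℓ V hV).2 τ hτ)
  have h4 : (Nat.card ρbar.range : ℝ) ≤ (A : ℝ) := le_trans h3 hA
  have h5 : Nat.card ρbar.range ≤ A := Nat.cast_le.mp h4
  exact ⟨ρbar, hfin, h5, hloc⟩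

/-- **BoundedModL ⟸ GateModL' (NO semisimplicity asked) + GateSparse + Chebotarev + grp_gate**:
`boundedModL_of_sparse` after `exists_semisimplification` (gap (g5) of board 3384). -/
theorem boundedModL_of_modL (hin : ChebInputs) (N : ℕ) (hN : N ≠ 0) {O : Type*} [CommRing O]
    (a' e' : ℕ → O) (Ya Ye : Finset O) (Xs : Set ℕ) (η : ℝ) (hη0 : 0 ≤ η) (hη : η < 1 / 2)
    (hX : UpperLogDensityLE Xs η)
    (hYa : ∀ p : ℕ, p.Prime → ¬ p ∣ N → p ∉ Xs → a' p ∈ Ya)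
    (hYe : ∀ p : ℕ, p.Prime → ¬ p ∣ N → e' p ∈ Ye)
    (A : ℕ) (hA : 120 * ((Ya.card * Ye.card : ℕ) : ℝ) / (1 - 2 * η) ≤ (A : ℝ))
    (ℓ₀ : ℕ)
    (H : ∀ ℓ : ℕ, ℓ.Prime → ℓ₀ ≤ ℓ → ¬ ℓ ∣ N → ∀ φ : O →+* ZMod ℓ,
      ∃ ρbar : Γℚ →* GL (Fin 2) (ZMod ℓ), GaloisFactorsThroughFiniteLevel ρbar ∧
        ∀ p : ℕ, p.Prime → ¬ p ∣ N → p ≠ ℓ →
          ∀ V : ValuationSubring (AlgebraicClosure ℚ), V.LiesOverPrime p →
            (∀ σ ∈ V.inertiaSubgroupIn ℚ, ρbar σ = 1) ∧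
            ∀ τ : Γℚ, V.IsFrobeniusAt τ p →
              ((ρbar τ : GL (Fin 2) (ZMod ℓ)) : Matrix (Fin 2) (Fin 2) (ZMod ℓ)).trace =
                φ (a' p) ∧
              ((ρbar τ : GL (Fin 2) (ZMod ℓ)) : Matrix (Fin 2) (Fin 2) (ZMod ℓ)).det =
                φ (e' p)) :
    ∀ ℓ : ℕ, ℓ.Prime → max ℓ₀ (4 * (Ya.card * Ye.card) + 1) ≤ ℓ → ¬ ℓ ∣ N →
      ∀ φ : O →+* ZMod ℓ,
      ∃ ρbar : Γℚ →* GL (Fin 2) (ZMod ℓ), GaloisFactorsThroughFiniteLevel ρbar ∧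
        Nat.card ρbar.range ≤ A ∧
        ∀ p : ℕ, p.Prime → ¬ p ∣ N → p ≠ ℓ →
          ∀ V : ValuationSubring (AlgebraicClosure ℚ), V.LiesOverPrime p →
            (∀ σ ∈ V.inertiaSubgroupIn ℚ, ρbar σ = 1) ∧
            ∀ τ : Γℚ, V.IsFrobeniusAt τ p →
              ((ρbar τ : GL (Fin 2) (ZMod ℓ)) : Matrix (Fin 2) (Fin 2) (ZMod ℓ)).trace =
                φ (a' p) ∧
              ((ρbar τ : GL (Fin 2) (ZMod ℓ)) : Matrix (Fin 2) (Fin 2) (ZMod ℓ)).det =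
                φ (e' p) := by
  refine boundedModL_of_sparse hin N hN a' e' Ya Ye Xs η hη0 hη hX hYa hYe A hA ℓ₀ ?_
  intro ℓ hℓF h1 hℓN φ
  obtain ⟨ρbar, hfin, hloc⟩ := H ℓ hℓF.out h1 hℓN φ
  obtain ⟨ρ', hss, hcp, hker⟩ := exists_semisimplification ρbar
  refine ⟨ρ', ?_, hss, ?_⟩
  · obtain ⟨L, hL, h⟩ := hfin
    exact ⟨L, hL, fun σ hσ => hker σ (h σ hσ)⟩
  · intro p hp hpN hpℓ V hV
    obtain ⟨hin', hfr⟩ := hloc p hp hpN hpℓ V hV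
    refine ⟨fun σ hσ => hker σ (hin' σ hσ), fun τ hτ => ?_⟩
    obtain ⟨h1', h2'⟩ := hfr τ hτ
    exact ⟨(hcp τ).1.trans h1', (hcp τ).2.trans h2'⟩

end Fermat.Agent.DS.N6
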