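/-
NEXT-GATE / S48-(N6)-EMB (helper51): `ℓ`-adic places of a number field together with a complex
embedding of `ℚ_[ℓ]`.

Deligne–Serre §8 lifts the mod `λ` representations (finite image of order prime to `ℓ`) to
`GL₂(𝒪_λ)`, `𝒪_λ = ℤ_ℓ` for `λ` of degree one, and then regards them as complex representations.
This file provides the bridge:

* `nonempty_algHom_of_card` **(E1)**: a field extension `F/K` of a countable field embeds over `K`
  into every uncountable algebraically closed `Ω/K` with `#F ≤ #Ω` (transcendence bases);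
* `mk_padic_le_continuum`: `#ℚ_[p] ≤ 𝔠`;
* `exists_ringHom_padic_complex` **(E3)**: `j : K →+* ℚ_[p]`, `ι₀ : K →+* ℂ`, `K` countable
  ⟹ `∃ ι : ℚ_[p] →+* ℂ, ι.comp j = ι₀`;
* `infinite_setOf_prime_dvd_eval` (Schur): infinitely many primes divide a value of a nonconstant
  integer polynomial;
* `infinite_setOf_exists_ringHom_padic` **(E4)**: a number field embeds into `ℚ_[p]` for infinitely
  many `p` (Schur + Bezout over `ℤ` + Mathlib's `hensels_lemma`);
* `padicIntHom` : the induced `𝓞 K →+* ℤ_[p]`, `residueHom` : `𝓞 K →+* ZMod p`;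
* `finite_setOf_exists_ringHom_eq_zero` **(E6)**: a nonzero `x : 𝓞 K` is killed by ring
  homomorphisms `𝓞 K →+* ZMod ℓ` for finitely many `ℓ` only;
* `exists_padic_places` **(E5)**: the package.
-/
import Mathlib

set_option autoImplicit false

open Cardinal Polynomial NumberField

namespace Fermat.Agent.DS.N6

universe u

section E1

variable {K F Ω : Type u} [Field K] [Field F] [Field Ω] [Algebra K F] [Algebra K Ω]
  [IsAlgClosed Ω]

/-- **(E1)** A field extension `F/K` of a countable field embeds over `K` into any uncountable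
algebraically closed extension `Ω/K` of cardinality at least that of `F`. -/
theorem nonempty_algHom_of_card (hK : #K ≤ ℵ₀) (hΩ : ℵ₀ < #Ω) (hF : #F ≤ #Ω) :
    Nonempty (F →ₐ[K] Ω) := by
  obtain ⟨ι, s, hs⟩ := exists_isTranscendenceBasis' K F
  obtain ⟨κ, t, ht⟩ := exists_isTranscendenceBasis' K Ω
  have hκ : #Ω = #κ :=
    IsAlgClosed.cardinal_eq_cardinal_transcendence_basis_of_aleph0_lt' t ht hK hΩ
  have hι : #ι ≤ #F := Cardinal.mk_le_of_injective hs.1.injective
  have hle : #ι ≤ #κ := hι.trans (hF.trans hκ.le)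
  obtain ⟨f⟩ := Cardinal.le_def _ _ |>.mp hle
  have hind : AlgebraicIndependent K (t ∘ f) := ht.1.comp f f.injective
  let A := Algebra.adjoin K (Set.range s)
  let φ₀ : A →ₐ[K] Ω := (MvPolynomial.aeval (t ∘ f)).comp hs.1.aevalEquiv.symm.toAlgHom
  have hφ₀ : Function.Injective φ₀ := by
    have h1 : Function.Injective (MvPolynomial.aeval (t ∘ f) : MvPolynomial ι K →ₐ[K] Ω) := hind
    exact h1.comp hs.1.aevalEquiv.symm.injective
  let _ : Algebra A Ω := φ₀.toRingHom.toAlgebra
  have : FaithfulSMul A Ω := (faithfulSMul_iff_algebraMap_injective A Ω).mpr hφ₀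
  have : Module.IsTorsionFree A Ω := inferInstance
  have : Algebra.IsAlgebraic A F := hs.isAlgebraic
  let g : F →ₐ[A] Ω := IsAlgClosed.lift
  refine ⟨{ g.toRingHom with commutes' := fun x => ?_ }⟩
  have h1 : algebraMap K F x = algebraMap A F (algebraMap K A x) := rfl
  have h2 : algebraMap A Ω (algebraMap K A x) = algebraMap K Ω x := φ₀.commutes x
  simp only [AlgHom.toRingHom_eq_coe, RingHom.toMonoidHom_eq_coe, OneHom.toFun_eq_coe,
    MonoidHom.toOneHom_coe, MonoidHom.coe_coe, RingHom.coe_coe]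
  rw [h1, g.commutes, h2]

end E1

theorem mk_padic_le_continuum (p : ℕ) [Fact p.Prime] : #ℚ_[p] ≤ 𝔠 := by
  have h1 : #ℚ_[p] ≤ #(CauSeq ℚ (padicNorm p)) :=
    Cardinal.mk_le_of_surjective (f := (CauSeq.Completion.mk : CauSeq ℚ (padicNorm p) → ℚ_[p]))
      Quotient.mk_surjective
  have h2 : #(CauSeq ℚ (padicNorm p)) ≤ #(ℕ → ℚ) :=
    Cardinal.mk_le_of_injective (f := fun f : CauSeq ℚ (padicNorm p) => (f : ℕ → ℚ))
      (fun f g h => CauSeq.ext (fun n => congrFun h n))
  have h3 : #(ℕ → ℚ) = 𝔠 := by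
    rw [Cardinal.mk_arrow, Cardinal.mkRat, Cardinal.mk_nat]
    simp
  exact (h1.trans h2).trans h3.le

/-- **(E3)** An embedding of a countable field `K` into `ℚ_[p]` and an embedding of `K` into `ℂ`
are related by a field embedding `ℚ_[p] → ℂ`. -/
theorem exists_ringHom_padic_complex {K : Type*} [Field K] [Countable K] (p : ℕ) [Fact p.Prime]
    (j : K →+* ℚ_[p]) (ι₀ : K →+* ℂ) : ∃ ι : ℚ_[p] →+* ℂ, ι.comp j = ι₀ := by
  -- pass to the image of `K` in `ℂ`, which lives in `Type`
  let K' : Subfield ℂ := ι₀.fieldRange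
  let e : K ≃+* K' := RingEquiv.ofBijective ι₀.rangeRestrictField
    ⟨fun a b h => ι₀.injective (congrArg Subtype.val h), fun ⟨y, x, hx⟩ => ⟨x, Subtype.ext hx⟩⟩
  have he : ∀ x : K, ((e x : K') : ℂ) = ι₀ x := fun x => rfl
  have hcount : Countable K' := Countable.of_equiv K e.toEquiv
  let _ : Algebra K' ℚ_[p] := (j.comp e.symm.toRingHom).toAlgebra
  let _ : Algebra K' ℂ := K'.subtype.toAlgebra
  have hK' : #K' ≤ ℵ₀ := Cardinal.mk_le_aleph0_iff.mpr hcount
  have hΩ : ℵ₀ < #ℂ := by rw [Cardinal.mk_complex]; exact Cardinal.aleph0_lt_continuum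
  have hF : #ℚ_[p] ≤ #ℂ := by rw [Cardinal.mk_complex]; exact mk_padic_le_continuum p
  obtain ⟨g⟩ := nonempty_algHom_of_card (K := K') (F := ℚ_[p]) (Ω := ℂ) hK' hΩ hF
  refine ⟨g.toRingHom, ?_⟩
  ext x
  have h1 : j x = algebraMap K' ℚ_[p] (e x) := by
    change j x = j (e.symm (e x))
    rw [e.symm_apply_apply]
  have h2 : algebraMap K' ℂ (e x) = ι₀ x := he x
  change g (j x) = ι₀ x
  rw [h1, g.commutes, h2]

/-- A nonconstant integer polynomial takes a value which is not `0`, `c`, `-c` on every infinite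
progression `m ↦ k * m`, `k ≠ 0`. -/
theorem exists_eval_mul_notMem (f : ℤ[X]) (hf : 0 < f.natDegree) (k : ℤ) (hk : k ≠ 0) (c : ℤ) :
    ∃ m : ℤ, f.eval (k * m) ≠ 0 ∧ f.eval (k * m) ≠ c ∧ f.eval (k * m) ≠ -c := by
  classical
  have hne : ∀ v : ℤ, f - C v ≠ 0 := by
    intro v h
    have : (f - C v).natDegree = f.natDegree := natDegree_sub_C
    rw [h, natDegree_zero] at this
    omega
  let T : Finset ℤ := (f - C 0).roots.toFinset ∪ (f - C c).roots.toFinset ∪ (f - C (-c)).roots.toFinset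
  have hinj : Function.Injective fun m : ℤ => k * m := fun a b h => mul_left_cancel₀ hk h
  have hfin : ((fun m : ℤ => k * m) ⁻¹' (T : Set ℤ)).Finite :=
    Set.Finite.preimage hinj.injOn T.finite_toSet
  obtain ⟨m, hm⟩ := hfin.exists_notMem
  refine ⟨m, ?_, ?_, ?_⟩
  · intro h
    apply hm
    simp only [Set.mem_preimage, Finset.coe_union, Set.mem_union, Finset.mem_coe,
      Multiset.mem_toFinset, T]
    left; left
    rw [mem_roots (hne 0)]
    simp [h]
  · intro h
    apply hm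
    simp only [Set.mem_preimage, Finset.coe_union, Set.mem_union, Finset.mem_coe,
      Multiset.mem_toFinset, T]
    left; right
    rw [mem_roots (hne c)]
    simp [h]
  · intro h
    apply hm
    simp only [Set.mem_preimage, Finset.coe_union, Set.mem_union, Finset.mem_coe,
      Multiset.mem_toFinset, T]
    right
    rw [mem_roots (hne (-c))]
    simp [h]

/-- **Schur.** Infinitely many primes divide some value of a nonconstant integer polynomial. -/
theorem infinite_setOf_prime_dvd_eval (f : ℤ[X]) (hf : 0 < f.natDegree) :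
    {p : ℕ | p.Prime ∧ ∃ n : ℤ, (p : ℤ) ∣ f.eval n}.Infinite := by
  classical
  intro hfin
  set c : ℤ := f.eval 0 with hc
  by_cases hc0 : c = 0
  · -- every prime divides `f 0 = 0`
    apply Nat.infinite_setOfPred_prime
    refine hfin.subset fun p hp => ⟨hp, 0, ?_⟩
    rw [← hc, hc0]; exact dvd_zero _
  · set Q : ℕ := ∏ p ∈ hfin.toFinset, p with hQ
    have hQ0 : (Q : ℤ) ≠ 0 := by
      rw [hQ]
      exact_mod_cast Finset.prod_ne_zero_iff.mpr fun p hp =>
        ((hfin.mem_toFinset.mp hp).1).ne_zero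
    obtain ⟨m, h0, h1, h2⟩ := exists_eval_mul_notMem f hf (c * Q) (mul_ne_zero hc0 hQ0) c
    -- `f (c Q m) = c * (1 + Q * m * t)`
    obtain ⟨t, ht⟩ : c * Q * m - 0 ∣ f.eval (c * Q * m) - f.eval 0 := sub_dvd_eval_sub _ _ _
    rw [sub_zero, ← hc] at ht
    set w : ℤ := 1 + Q * m * t with hw
    have hfw : f.eval (c * Q * m) = c * w := by rw [hw]; linarith
    have hw0 : w ≠ 0 := by
      intro h; apply h0; rw [hfw, h, mul_zero]
    have hw1 : w.natAbs ≠ 1 := by
      intro h
      rcases Int.natAbs_eq_iff.mp h with h | h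
      · apply h1; rw [hfw, h]; simp
      · apply h2; rw [hfw, h]; simp
    obtain ⟨p, hp, hpw⟩ := Nat.exists_prime_and_dvd hw1
    have hpw' : (p : ℤ) ∣ w := Int.natCast_dvd.mpr hpw
    have hpS : p ∈ hfin.toFinset := by
      rw [Set.Finite.mem_toFinset]
      exact ⟨hp, c * Q * m, hfw ▸ Dvd.dvd.mul_left hpw' c⟩
    have hpQ : (p : ℤ) ∣ (Q : ℤ) := by
      rw [hQ]
      exact_mod_cast Finset.dvd_prod_of_mem (fun p => p) hpS
    have hp1 : (p : ℤ) ∣ 1 := by
      have : (p : ℤ) ∣ Q * m * t := (hpQ.mul_right m).mul_right t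
      have h3 : (1 : ℤ) = w - Q * m * t := by rw [hw]; ring
      rw [h3]
      exact dvd_sub hpw' this
    have := Int.eq_one_of_dvd_one (by positivity) hp1
    exact hp.one_lt.ne' (by exact_mod_cast this)

/-- Bezout over `ℤ` for an integer model of an irreducible rational polynomial. -/
theorem exists_bezout_int (g : ℚ[X]) (hg : Irreducible g) (f : ℤ[X]) (b : ℤ) (hb : b ≠ 0)
    (hfg : f.map (Int.castRingHom ℚ) = (b : ℚ) • g) :
    ∃ (U V : ℤ[X]) (D : ℤ), D ≠ 0 ∧ U * f + V * derivative f = C D := by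
  obtain ⟨u, v, huv⟩ := hg.separable
  obtain ⟨b₁, hb₁M, hb₁⟩ := IsLocalization.integerNormalization_spec (nonZeroDivisors ℤ) u
  obtain ⟨b₂, hb₂M, hb₂⟩ := IsLocalization.integerNormalization_spec (nonZeroDivisors ℤ) v
  have hb₁0 : b₁ ≠ 0 := nonZeroDivisors.ne_zero hb₁M
  have hb₂0 : b₂ ≠ 0 := nonZeroDivisors.ne_zero hb₂M
  set U₁ := IsLocalization.integerNormalization (nonZeroDivisors ℤ) u
  set V₁ := IsLocalization.integerNormalization (nonZeroDivisors ℤ) v
  refine ⟨C b₂ * U₁, C b₁ * V₁, b * b₁ * b₂, mul_ne_zero (mul_ne_zero hb hb₁0) hb₂0, ?_⟩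
  apply Polynomial.map_injective (Int.castRingHom ℚ) Int.cast_injective
  have hder : (derivative f).map (Int.castRingHom ℚ) = (b : ℚ) • derivative g := by
    rw [← derivative_map, hfg, derivative_smul]
  have e1 : U₁.map (Int.castRingHom ℚ) = (b₁ : ℚ) • u := by
    have := hb₁
    simpa [Algebra.smul_def, zsmul_eq_mul] using this
  have e2 : V₁.map (Int.castRingHom ℚ) = (b₂ : ℚ) • v := by
    have := hb₂
    simpa [Algebra.smul_def, zsmul_eq_mul] using this
  rw [Polynomial.map_add, Polynomial.map_mul, Polynomial.map_mul, Polynomial.map_mul,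
    Polynomial.map_mul, Polynomial.map_C, Polynomial.map_C, Polynomial.map_C, hfg, hder, e1, e2]
  have h3 : ∀ n : ℤ, (Int.castRingHom ℚ) n = (n : ℚ) := fun n => rfl
  rw [h3, h3, h3]
  have : (C (b₂ : ℚ) * ((b₁ : ℚ) • u)) * ((b : ℚ) • g) +
      (C (b₁ : ℚ) * ((b₂ : ℚ) • v)) * ((b : ℚ) • derivative g)
      = C (((b * b₁ * b₂ : ℤ) : ℚ)) * (u * g + v * derivative g) := by
    simp only [smul_eq_C_mul, Int.cast_mul, C_mul]
    ring
  rw [this, huv, mul_one]

/-- Hensel: a simple root modulo `p` of an integer polynomial lifts to `ℤ_[p]`. -/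
theorem exists_padicInt_root (p : ℕ) [Fact p.Prime] (f : ℤ[X]) (n : ℤ)
    (h1 : (p : ℤ) ∣ f.eval n) (h2 : ¬ (p : ℤ) ∣ (derivative f).eval n) :
    ∃ z : ℤ_[p], aeval z f = 0 := by
  have e1 : aeval (n : ℤ_[p]) f = ((f.eval n : ℤ) : ℤ_[p]) := by
    have := aeval_algebraMap_apply_eq_algebraMap_eval (A := ℤ_[p]) n f
    simpa using this
  have e2 : aeval (n : ℤ_[p]) (derivative f) = (((derivative f).eval n : ℤ) : ℤ_[p]) := by
    have := aeval_algebraMap_apply_eq_algebraMap_eval (A := ℤ_[p]) n (derivative f)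
    simpa using this
  have hn1 : ‖aeval (n : ℤ_[p]) f‖ < 1 := by
    rw [e1]; exact (PadicInt.norm_int_lt_one_iff_dvd _).mpr h1
  have hn2 : ‖aeval (n : ℤ_[p]) (derivative f)‖ = 1 := by
    rw [e2]
    refine le_antisymm (PadicInt.norm_le_one _) (not_lt.mp fun h => h2 ?_)
    exact (PadicInt.norm_int_lt_one_iff_dvd _).mp h
  obtain ⟨z, hz, -⟩ := hensels_lemma (F := f) (a := (n : ℤ_[p])) (by rw [hn2]; simpa using hn1)
  exact ⟨z, hz⟩


/-- **(E4)** A number field embeds into `ℚ_[p]` for infinitely many primes `p`. -/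
theorem infinite_setOf_exists_ringHom_padic (K : Type*) [Field K] [NumberField K] :
    {p : ℕ | ∃ _ : Fact p.Prime, Nonempty (K →+* ℚ_[p])}.Infinite := by
  classical
  let pb := Field.powerBasisOfFiniteOfSeparable ℚ K
  set g := minpoly ℚ pb.gen with hgdef
  have hint : IsIntegral ℚ pb.gen := pb.isIntegral_gen
  have hg : Irreducible g := minpoly.irreducible hint
  obtain ⟨b, hbM, hb⟩ := IsLocalization.integerNormalization_spec (nonZeroDivisors ℤ) g
  have hb0 : b ≠ 0 := nonZeroDivisors.ne_zero hbM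
  set f := IsLocalization.integerNormalization (nonZeroDivisors ℤ) g with hfdef
  have hfg : f.map (Int.castRingHom ℚ) = (b : ℚ) • g := by
    have := hb
    simpa [Algebra.smul_def, zsmul_eq_mul] using this
  have hdeg : 0 < f.natDegree := by
    have h1 : (f.map (Int.castRingHom ℚ)).natDegree = f.natDegree :=
      natDegree_map_eq_of_injective Int.cast_injective f
    have h2 : ((b : ℚ) • g).natDegree = g.natDegree :=
      natDegree_smul g (by exact_mod_cast hb0)
    rw [← h1, hfg, h2]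
    exact minpoly.natDegree_pos hint
  obtain ⟨U, V, D, hD, hUV⟩ := exists_bezout_int g hg f b hb0 hfg
  have hinf := infinite_setOf_prime_dvd_eval f hdeg
  have hDfin : {p : ℕ | p.Prime ∧ (p : ℤ) ∣ D}.Finite := by
    refine (D.natAbs.divisors.finite_toSet).subset fun p hp => ?_
    simp only [Finset.mem_coe, Nat.mem_divisors]
    exact ⟨Int.natCast_dvd.mp hp.2, Int.natAbs_ne_zero.mpr hD⟩
  refine (hinf.sdiff hDfin).mono ?_
  rintro p ⟨⟨hp, n, hn⟩, hpD⟩
  have : Fact p.Prime := ⟨hp⟩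
  have h2 : ¬ (p : ℤ) ∣ (derivative f).eval n := by
    intro h
    apply hpD
    refine ⟨hp, ?_⟩
    have h3 := congrArg (eval n) hUV
    simp only [eval_add, eval_mul, eval_C] at h3
    rw [← h3]
    exact dvd_add (hn.mul_left _) (h.mul_left _)
  obtain ⟨z, hz⟩ := exists_padicInt_root p f n hn h2
  have hroot : aeval (z : ℚ_[p]) g = 0 := by
    have e1 : aeval (z : ℚ_[p]) (f.map (algebraMap ℤ ℚ)) = aeval (z : ℚ_[p]) f :=
      aeval_map_algebraMap ℚ (z : ℚ_[p]) f
    have e2 : aeval (z : ℚ_[p]) f = ((aeval z f : ℤ_[p]) : ℚ_[p]) := by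
      have := aeval_algebraMap_apply ℚ_[p] z f
      simpa [PadicInt.algebraMap_apply] using this
    have e3 : aeval (z : ℚ_[p]) ((b : ℚ) • g) = 0 := by
      rw [← hfg]
      have : (Int.castRingHom ℚ) = algebraMap ℤ ℚ := rfl
      rw [this, e1, e2, hz]; simp
    rw [map_smul, smul_eq_zero] at e3
    rcases e3 with e3 | e3
    · exact absurd e3 (by exact_mod_cast hb0)
    · exact e3
  exact ⟨⟨hp⟩, ⟨(pb.lift (z : ℚ_[p]) hroot).toRingHom⟩⟩

/-- An element of `ℚ_[p]` which is integral over `ℤ` has norm at most one. -/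
theorem padic_norm_le_one_of_isIntegral (p : ℕ) [Fact p.Prime] {y : ℚ_[p]} (hy : IsIntegral ℤ y) :
    ‖y‖ ≤ 1 := by
  have h1 : IsIntegral ℤ_[p] y := hy.tower_top
  obtain ⟨z, hz⟩ := IsIntegrallyClosed.isIntegral_iff.mp h1
  rw [← hz, PadicInt.algebraMap_apply]
  exact z.2

/-- The restriction to the rings of integers of an embedding of a number field into `ℚ_[p]`. -/
noncomputable def padicIntHom {K : Type*} [Field K] [NumberField K] (p : ℕ) [Fact p.Prime]
    (j : K →+* ℚ_[p]) : 𝓞 K →+* ℤ_[p] :=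
  (j.comp (algebraMap (𝓞 K) K)).codRestrict (PadicInt.subring p) fun x =>
    padic_norm_le_one_of_isIntegral p
      ((RingOfIntegers.isIntegral_coe x).map (j : K →+* ℚ_[p]).toIntAlgHom)

@[simp] theorem coe_padicIntHom {K : Type*} [Field K] [NumberField K] (p : ℕ) [Fact p.Prime]
    (j : K →+* ℚ_[p]) (x : 𝓞 K) : ((padicIntHom p j x : ℤ_[p]) : ℚ_[p]) = j (x : K) := rfl

/-- **(E6)** A nonzero algebraic integer is killed by ring homomorphisms `𝓞 K → ZMod ℓ` for
finitely many `ℓ` only. -/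
theorem finite_setOf_exists_ringHom_eq_zero {K : Type*} [Field K] [NumberField K] (x : 𝓞 K)
    (hx : x ≠ 0) : {ℓ : ℕ | ∃ φ : 𝓞 K →+* ZMod ℓ, ℓ.Prime ∧ φ x = 0}.Finite := by
  set n : ℕ := Ideal.absNorm (Ideal.span {x}) with hn
  have hn0 : n ≠ 0 := by
    rw [hn, Ne, Ideal.absNorm_eq_zero_iff, Ideal.span_singleton_eq_bot]
    exact hx
  have hmem : (n : 𝓞 K) ∈ Ideal.span {x} := Ideal.absNorm_mem _
  obtain ⟨y, hy⟩ := Ideal.mem_span_singleton'.mp hmem
  refine (n.divisors.finite_toSet).subset ?_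
  rintro ℓ ⟨φ, hℓ, hφ⟩
  simp only [Finset.mem_coe, Nat.mem_divisors]
  refine ⟨?_, hn0⟩
  have h1 : φ (n : 𝓞 K) = 0 := by rw [← hy, map_mul, hφ, mul_zero]
  rw [map_natCast] at h1
  exact (ZMod.natCast_eq_zero_iff n ℓ).mp h1

/-- The residue map `𝓞 K → 𝔽_p` attached to an embedding of a number field into `ℚ_[p]`. -/
noncomputable def residueHom {K : Type*} [Field K] [NumberField K] (p : ℕ) [Fact p.Prime]
    (j : K →+* ℚ_[p]) : 𝓞 K →+* ZMod p :=
  PadicInt.toZMod.comp (padicIntHom p j)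

theorem residueHom_apply {K : Type*} [Field K] [NumberField K] (p : ℕ) [Fact p.Prime]
    (j : K →+* ℚ_[p]) (x : 𝓞 K) : residueHom p j x = PadicInt.toZMod (padicIntHom p j x) := rfl

/-- A number field is countable. -/
theorem countable_of_numberField (K : Type*) [Field K] [NumberField K] : Countable K := by
  have e := (Module.finBasis ℚ K).equivFun
  exact Countable.of_equiv _ e.toEquiv.symm

/-- **(E5)** For a number field `K` with a complex embedding `ι₀` there are infinitely many primes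
`ℓ` with an embedding `j : K →+* ℚ_[ℓ]` and a field embedding `ι : ℚ_[ℓ] →+* ℂ` such that
`ι ∘ j = ι₀`. -/
theorem exists_padic_places (K : Type*) [Field K] [NumberField K] (ι₀ : K →+* ℂ) :
    ∃ L : Set ℕ, L.Infinite ∧ ∀ ℓ ∈ L, ∃ (_ : Fact ℓ.Prime) (j : K →+* ℚ_[ℓ])
      (ι : ℚ_[ℓ] →+* ℂ), ι.comp j = ι₀ := by
  have := countable_of_numberField K
  refine ⟨_, infinite_setOf_exists_ringHom_padic K, ?_⟩
  rintro ℓ ⟨hℓ, ⟨j⟩⟩
  obtain ⟨ι, hι⟩ := exists_ringHom_padic_complex ℓ j ι₀
  exact ⟨hℓ, j, ι, hι⟩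

end Fermat.Agent.DS.N6
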