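/-
GATE-N / S48-(N6)-FINAL-TOP (helper51): **the frozen S48 conclusion from TWO inputs only**:
* `hin : N8.ChebInputs` (helper1's abstract number-field input of Chebotarev, = D1 + D2c), and
* `hModL` = GateModL' (board 3384 (B), NO semisimplicity, NO bound): for every number field
  `E ⊂ ℂ` and every lift `a', e' : ℕ → 𝓞 E` of the `a_p`, `ε(p)`, for all large `ℓ ∤ N` and every
  `φ : 𝓞 E →+* ZMod ℓ` a finite-level `ρbar : G_ℚ → GL₂(𝔽_ℓ)` unramified outside `Nℓ` with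
  `tr ρbar(Frob_p) = φ(a' p)`, `det ρbar(Frob_p) = φ(e' p)`.
Everything else is plugged: GateInt/GateSparse (helper38 `N2.coeff_fg`, `N2.gateSparse`),
Rankin (helper10 `N1.weightOne_sum_primes_bounded_le`), weighted Chebotarev (helper1
`N8.weightedChebLower_of_chebInputs`), the uniform bound (`Bound.boundedModL_of_modL` = helper1
(O3) + helper6 `grp_gate_card_le` + `Semis`), D–S §8 (`Export`), irreducibility (helper4 `N7`).
-/
import Mathlib
import Fermat.Agent.DS.N6.FinalFG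
import Fermat.Agent.DS.N6.Bound
import Fermat.Agent.DS.N6.Adapters
import Fermat.Agent.DS.N2.GatesFinal
import Fermat.Agent.DS.N1.CoeffBound
import Fermat.Agent.DS.N8.ChebWeighted

set_option autoImplicit false

open NumberField CongruenceSubgroup
open scoped MatrixGroups

namespace Fermat.Agent.DS.N6

local notation "Γℚ" => (AlgebraicClosure ℚ ≃ₐ[ℚ] AlgebraicClosure ℚ)

/-- the Rankin-type bound of `s48_of_gates` from helper10's (N1)(ii). -/
theorem rankin_of_weightOne (N : ℕ) [NeZero N] (ε : DirichletCharacter ℂ N)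
    (f : CuspForm (Gamma1 N) 1)
    (hf₁ : ModularFormClass.qCoeff f 1 = 1)
    (hT : ∀ p : ℕ, p.Prime → ¬ p ∣ N → ∀ n : ℕ,
        ModularFormClass.qCoeff f (p * n) +
            ε (p : ZMod N) * (if p ∣ n then ModularFormClass.qCoeff f (n / p) else 0) =
          ModularFormClass.qCoeff f p * ModularFormClass.qCoeff f n)
    (hb : ∀ p : ℕ, p.Prime → ¬ p ∣ N → ‖ModularFormClass.qCoeff f p‖ ≤ 2) :
    ∃ C : ℝ, ∀ s : ℝ, 1 < s → s < 2 → ∀ T : Finset ℕ,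
      (∀ p ∈ T, p.Prime ∧ p ∉ N.primeFactors) →
      ∑ p ∈ T, ‖ModularFormClass.qCoeff f p‖ ^ 2 * (p : ℝ) ^ (-s) ≤
        Real.log (1 / (s - 1)) + C := by
  have hN : N ≠ 0 := NeZero.ne N
  obtain ⟨C, hC1, hC⟩ := Fermat.Agent.DS.N1.weightOne_sum_primes_bounded_le N ε f hf₁ hT
  refine ⟨Real.log C + Real.log 2 + 2 * (4 : ℝ) ^ 2, fun s hs1 hs2 T hTp => ?_⟩
  have hTp' : ∀ p ∈ T, p.Prime ∧ ¬ p ∣ N ∧ ‖ModularFormClass.qCoeff f p‖ ^ 2 ≤ 4 := by
    intro p hp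
    obtain ⟨h1, h2⟩ := hTp p hp
    have hpN : ¬ p ∣ N := fun hd => h2 (Nat.mem_primeFactors.mpr ⟨h1, hd, hN⟩)
    refine ⟨h1, hpN, ?_⟩
    have := hb p h1 hpN
    have h0 : 0 ≤ ‖ModularFormClass.qCoeff f p‖ := norm_nonneg _
    nlinarith
  have h := hC s hs1 4 T hTp'
  have hsum : ∑ p ∈ T, ‖ModularFormClass.qCoeff f p‖ ^ 2 * (p : ℝ) ^ (-s) =
      ∑ p ∈ T, ‖ModularFormClass.qCoeff f p‖ ^ 2 / (p : ℝ) ^ s := by
    refine Finset.sum_congr rfl fun p _ => ?_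
    rw [Real.rpow_neg (Nat.cast_nonneg p), div_eq_mul_inv]
  rw [hsum]
  have h6 := log_mul_inv_add_one_le hC1 hs1 hs2
  linarith

open Fermat.Agent.DS.N7 Fermat.Agent.DS.N8 in
/-- **S48 from GateModL' and the Chebotarev inputs.** -/
theorem s48_of_modL (hin : ChebInputs) (N : ℕ) [NeZero N] (ε : DirichletCharacter ℂ N)
    (f : CuspForm (Gamma1 N) 1)
    (hf₁ : ModularFormClass.qCoeff f 1 = 1)
    (hT : ∀ p : ℕ, p.Prime → ¬ p ∣ N → ∀ n : ℕ,
        ModularFormClass.qCoeff f (p * n) +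
            ε (p : ZMod N) * (if p ∣ n then ModularFormClass.qCoeff f (n / p) else 0) =
          ModularFormClass.qCoeff f p * ModularFormClass.qCoeff f n)
    (hModL : ∀ (E : IntermediateField ℚ ℂ) [NumberField E] (a' e' : ℕ → 𝓞 E),
      (∀ p : ℕ, p.Prime → ¬ p ∣ N → ((a' p : E) : ℂ) = ModularFormClass.qCoeff f p) →
      (∀ p : ℕ, p.Prime → ¬ p ∣ N → ((e' p : E) : ℂ) = ε (p : ZMod N)) →
      ∃ ℓ₀ : ℕ, ∀ ℓ : ℕ, ℓ.Prime → ℓ₀ ≤ ℓ → ¬ ℓ ∣ N → ∀ φ : 𝓞 E →+* ZMod ℓ,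
        ∃ ρbar : Γℚ →* GL (Fin 2) (ZMod ℓ), GaloisFactorsThroughFiniteLevel ρbar ∧
          ∀ p : ℕ, p.Prime → ¬ p ∣ N → p ≠ ℓ →
            ∀ V : ValuationSubring (AlgebraicClosure ℚ), V.LiesOverPrime p →
              (∀ σ ∈ V.inertiaSubgroupIn ℚ, ρbar σ = 1) ∧
              ∀ τ : Γℚ, V.IsFrobeniusAt τ p →
                ((ρbar τ : GL (Fin 2) (ZMod ℓ)) : Matrix (Fin 2) (Fin 2) (ZMod ℓ)).trace =
                  φ (a' p) ∧
                ((ρbar τ : GL (Fin 2) (ZMod ℓ)) : Matrix (Fin 2) (Fin 2) (ZMod ℓ)).det =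
                  φ (e' p)) :
    ∃ ρ : Γℚ →* GL (Fin 2) ℂ, GaloisFactorsThroughFiniteLevel ρ ∧
      (Deformation.matrixRepresentation ρ).IsIrreducible ∧
      ∀ p : ℕ, p.Prime → ¬ p ∣ N →
        ∀ A : ValuationSubring (AlgebraicClosure ℚ), A.LiesOverPrime p →
          (∀ σ ∈ A.inertiaSubgroupIn ℚ, ρ σ = 1) ∧
          ∀ σ : Γℚ, A.IsFrobeniusAt σ p →
            ((ρ σ : GL (Fin 2) ℂ) : Matrix (Fin 2) (Fin 2) ℂ).trace =
              ModularFormClass.qCoeff f p ∧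
            ((ρ σ : GL (Fin 2) ℂ) : Matrix (Fin 2) (Fin 2) ℂ).det = ε (p : ZMod N) := by
  classical
  have hN : N ≠ 0 := NeZero.ne N
  -- GateSparse at η = 1/4
  obtain ⟨Y, Xs, ⟨C, hC, C', hsum⟩, hY⟩ :=
    Fermat.Agent.DS.N2.gateSparse ε f hf₁ hT (1 / 4) (by norm_num)
  have hX : UpperLogDensityLE Xs (1 / 4) :=
    upperLogDensityLE_of_sumBound Xs (1 / 4) (by norm_num) C hC C' hsum
  set Tε : Finset ℂ := Finset.univ.image fun x : ZMod N => ε x with hTε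
  set A : ℕ := 240 * (Y.card * Tε.card) with hAdef
  refine s48_of_gates_fg N ε f hf₁ hT (Fermat.Agent.DS.N2.coeff_fg ε f hf₁ hT) A ?_
    (rankin_of_weightOne N ε f hf₁ hT)
    (fun G _ _ π hsurj hfin w hw0 hwc =>
      weightedChebLower_of_chebInputs hin π hfin hsurj N.primeFactors w hw0 hwc)
  intro E _ a' e' ha' he'
  obtain ⟨ℓ₀, H⟩ := hModL E a' e' ha' he'
  have hinj : Function.Injective (fun y : 𝓞 E => ((y : E) : ℂ)) := by
    intro x y hxy
    exact RingOfIntegers.ext (Subtype.ext hxy)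
  set Ya : Finset (𝓞 E) := Y.preimage _ hinj.injOn with hYa
  set Ye : Finset (𝓞 E) := Tε.preimage _ hinj.injOn with hYe
  have hYac : Ya.card ≤ Y.card := by
    rw [hYa, Finset.card_preimage]
    exact Finset.card_filter_le _ _
  have hYec : Ye.card ≤ Tε.card := by
    rw [hYe, Finset.card_preimage]
    exact Finset.card_filter_le _ _
  have hA : 120 * ((Ya.card * Ye.card : ℕ) : ℝ) / (1 - 2 * (1 / 4)) ≤ (A : ℝ) := by
    have h1 : Ya.card * Ye.card ≤ Y.card * Tε.card := Nat.mul_le_mul hYac hYec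
    have h2 : ((Ya.card * Ye.card : ℕ) : ℝ) ≤ ((Y.card * Tε.card : ℕ) : ℝ) := by
      exact_mod_cast h1
    have h3 : (A : ℝ) = 240 * ((Y.card * Tε.card : ℕ) : ℝ) := by
      rw [hAdef]; push_cast; ring
    rw [h3]
    have h4 : (1 : ℝ) - 2 * (1 / 4) = 1 / 2 := by norm_num
    rw [h4]
    have h5 : 120 * ((Ya.card * Ye.card : ℕ) : ℝ) / (1 / 2) =
        240 * ((Ya.card * Ye.card : ℕ) : ℝ) := by ring
    rw [h5]
    linarith
  refine ⟨max ℓ₀ (4 * (Ya.card * Ye.card) + 1),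
    boundedModL_of_modL hin N hN a' e' Ya Ye Xs (1 / 4) (by norm_num) (by norm_num) hX ?_ ?_ A hA
      ℓ₀ H⟩
  · intro p hp hpN hpX
    rw [hYa, Finset.mem_preimage]
    show ((a' p : E) : ℂ) ∈ Y
    rw [ha' p hp hpN]
    exact hY p hp hpN hpX
  · intro p hp hpN
    rw [hYe, Finset.mem_preimage]
    show ((e' p : E) : ℂ) ∈ Tε
    rw [he' p hp hpN]
    exact Finset.mem_image.mpr ⟨(p : ZMod N), Finset.mem_univ _, rfl⟩

end Fermat.Agent.DS.N6
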