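/-
NEXT-GATE / S48-(N6)-GLUE (helper51): the pigeonhole step of Deligne–Serre §8.

Data: an infinite set `L` of primes `ℓ`, for each of them an ideal `I ℓ` of a subring `O ⊆ ℂ`
(the kernel of a residue map `O → 𝔽_ℓ`) such that a nonzero element of `O` lies in only finitely
many `I ℓ`, and for each `ℓ ∈ L` a complex Galois representation `ρ ℓ` whose (trace, det) pairs all
lie in ONE finite set `Y ⊆ O × O` and whose Frobenius (trace, det) at `p ∤ N ℓ` is CONGRUENT to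
`(a p, e p)` modulo `I ℓ`.  Conclusion: for all `ℓ ∈ L` outside a finite set, the Frobenius
(trace, det) of `ρ ℓ` at every `p ∤ N ℓ` is EQUAL to `(a p, e p)`.

Proof: `(a p, e p) ∈ Y` by pigeonhole over `L ∖ {p}` (two elements of `O` congruent modulo
infinitely many `I ℓ` are equal); the finitely many `ℓ` that do not separate the points of `Y`
are thrown away.
-/
import Mathlib
import Fermat.Prelude.Def_GaloisRep_Residual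

set_option autoImplicit false

namespace Fermat.Agent.DS.N6

local notation "Γℚ" => (AlgebraicClosure ℚ ≃ₐ[ℚ] AlgebraicClosure ℚ)

section Abstract

variable {O : Type*} [CommRing O]

/-- Two elements congruent modulo infinitely many of the ideals `I ℓ` are equal. -/
theorem eq_of_infinite_congr {L : Set ℕ} {I : ℕ → Ideal O}
    (hI : ∀ x : O, x ≠ 0 → {ℓ ∈ L | x ∈ I ℓ}.Finite) {x y : O} {S : Set ℕ} (hS : S ⊆ L)
    (hSinf : S.Infinite) (h : ∀ ℓ ∈ S, x - y ∈ I ℓ) : x = y := by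
  by_contra hne
  have hfin := hI (x - y) (sub_ne_zero.mpr hne)
  exact hSinf (hfin.subset fun ℓ hℓ => ⟨hS hℓ, h ℓ hℓ⟩)

/-- Pigeonhole: a pair which is congruent, modulo `I ℓ` for every `ℓ` of an infinite subset of `L`,
to SOME member of the finite set `Y`, is a member of `Y`. -/
theorem mem_of_infinite_congr {L : Set ℕ} {I : ℕ → Ideal O}
    (hI : ∀ x : O, x ≠ 0 → {ℓ ∈ L | x ∈ I ℓ}.Finite) (Y : Finset (O × O)) {S : Set ℕ}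
    (hS : S ⊆ L) (hSinf : S.Infinite) (x : O × O)
    (h : ∀ ℓ ∈ S, ∃ y ∈ Y, y.1 - x.1 ∈ I ℓ ∧ y.2 - x.2 ∈ I ℓ) : x ∈ Y := by
  classical
  -- some `y ∈ Y` works for infinitely many `ℓ`
  have hex : ∃ y ∈ Y, {ℓ ∈ S | y.1 - x.1 ∈ I ℓ ∧ y.2 - x.2 ∈ I ℓ}.Infinite := by
    by_contra hcon
    have hfin : (⋃ y ∈ (Y : Set (O × O)),
        {ℓ ∈ S | y.1 - x.1 ∈ I ℓ ∧ y.2 - x.2 ∈ I ℓ}).Finite :=
      Set.Finite.biUnion Y.finite_toSet fun y hy =>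
        Set.not_infinite.mp fun hinf => hcon ⟨y, Finset.mem_coe.mp hy, hinf⟩
    apply hSinf
    refine hfin.subset fun ℓ hℓ => ?_
    obtain ⟨y, hy, h1, h2⟩ := h ℓ hℓ
    exact Set.mem_biUnion (Finset.mem_coe.mpr hy) ⟨hℓ, h1, h2⟩
  obtain ⟨y, hy, hinf⟩ := hex
  have hsub : {ℓ ∈ S | y.1 - x.1 ∈ I ℓ ∧ y.2 - x.2 ∈ I ℓ} ⊆ L := fun ℓ hℓ => hS hℓ.1
  have h1 : y.1 = x.1 := eq_of_infinite_congr hI hsub hinf fun ℓ hℓ => hℓ.2.1
  have h2 : y.2 = x.2 := eq_of_infinite_congr hI hsub hinf fun ℓ hℓ => hℓ.2.2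
  have : y = x := Prod.ext h1 h2
  exact this ▸ hy

/-- All `ℓ ∈ L` outside a finite set separate the points of the finite set `Y`. -/
theorem exists_finset_separating {L : Set ℕ} {I : ℕ → Ideal O}
    (hI : ∀ x : O, x ≠ 0 → {ℓ ∈ L | x ∈ I ℓ}.Finite) (Y : Finset (O × O)) :
    ∃ F : Finset ℕ, ∀ ℓ ∈ L, ℓ ∉ F → ∀ y ∈ Y, ∀ y' ∈ Y,
      y.1 - y'.1 ∈ I ℓ → y.2 - y'.2 ∈ I ℓ → y = y' := by
  classical
  have hfin : (⋃ y ∈ (Y : Set (O × O)), ⋃ y' ∈ (Y : Set (O × O)),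
      {ℓ ∈ L | y ≠ y' ∧ y.1 - y'.1 ∈ I ℓ ∧ y.2 - y'.2 ∈ I ℓ}).Finite := by
    refine Set.Finite.biUnion Y.finite_toSet fun y _ => Set.Finite.biUnion Y.finite_toSet
      fun y' _ => ?_
    by_cases hyy : y = y'
    · refine Set.Finite.subset Set.finite_empty fun ℓ hℓ => ?_
      exact (hℓ.2.1 hyy).elim
    · by_cases h1 : y.1 = y'.1
      · have h2 : y.2 ≠ y'.2 := fun h2 => hyy (Prod.ext h1 h2)
        exact (hI _ (sub_ne_zero.mpr h2)).subset fun ℓ hℓ => ⟨hℓ.1, hℓ.2.2.2⟩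
      · exact (hI _ (sub_ne_zero.mpr h1)).subset fun ℓ hℓ => ⟨hℓ.1, hℓ.2.2.1⟩
  refine ⟨hfin.toFinset, fun ℓ hℓ hF y hy y' hy' h1 h2 => ?_⟩
  by_contra hne
  apply hF
  rw [Set.Finite.mem_toFinset]
  exact Set.mem_biUnion (Finset.mem_coe.mpr hy)
    (Set.mem_biUnion (Finset.mem_coe.mpr hy') ⟨hℓ, hne, h1, h2⟩)

end Abstract

open Matrix in
/-- **Deligne–Serre §8, pigeonhole step.**  See the header. -/
theorem exists_finset_forall_exact (N : ℕ) (a e : ℕ → ℂ) (O : Subring ℂ)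
    (L : Set ℕ) (hL : L.Infinite) (I : ℕ → Ideal O)
    (hI : ∀ x : O, x ≠ 0 → {ℓ ∈ L | x ∈ I ℓ}.Finite)
    (Y : Finset (O × O)) (ρ : ℕ → Γℚ →* GL (Fin 2) ℂ)
    (hY : ∀ ℓ ∈ L, ∀ σ : Γℚ, ∃ y ∈ Y,
      ((ρ ℓ σ : GL (Fin 2) ℂ) : Matrix (Fin 2) (Fin 2) ℂ).trace = (y.1 : ℂ) ∧
      ((ρ ℓ σ : GL (Fin 2) ℂ) : Matrix (Fin 2) (Fin 2) ℂ).det = (y.2 : ℂ))
    (hgood : ∀ ℓ ∈ L, ∀ p : ℕ, p.Prime → ¬ p ∣ N → p ≠ ℓ →
      ∀ A : ValuationSubring (AlgebraicClosure ℚ), A.LiesOverPrime p →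
        (∀ σ ∈ A.inertiaSubgroupIn ℚ, ρ ℓ σ = 1) ∧
        ∀ σ : Γℚ, A.IsFrobeniusAt σ p → ∃ t d a' e' : O,
          (t : ℂ) = ((ρ ℓ σ : GL (Fin 2) ℂ) : Matrix (Fin 2) (Fin 2) ℂ).trace ∧
          (d : ℂ) = ((ρ ℓ σ : GL (Fin 2) ℂ) : Matrix (Fin 2) (Fin 2) ℂ).det ∧
          (a' : ℂ) = a p ∧ (e' : ℂ) = e p ∧ t - a' ∈ I ℓ ∧ d - e' ∈ I ℓ) :
    ∃ F : Finset ℕ, ∀ ℓ ∈ L, ℓ ∉ F → ∀ p : ℕ, p.Prime → ¬ p ∣ N → p ≠ ℓ →
      ∀ A : ValuationSubring (AlgebraicClosure ℚ), A.LiesOverPrime p →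
        (∀ σ ∈ A.inertiaSubgroupIn ℚ, ρ ℓ σ = 1) ∧
        ∀ σ : Γℚ, A.IsFrobeniusAt σ p →
          ((ρ ℓ σ : GL (Fin 2) ℂ) : Matrix (Fin 2) (Fin 2) ℂ).trace = a p ∧
          ((ρ ℓ σ : GL (Fin 2) ℂ) : Matrix (Fin 2) (Fin 2) ℂ).det = e p := by
  classical
  obtain ⟨F, hF⟩ := exists_finset_separating hI Y
  refine ⟨F, fun ℓ hℓ hℓF p hp hpN hpℓ A hA => ⟨(hgood ℓ hℓ p hp hpN hpℓ A hA).1, fun σ hσ => ?_⟩⟩
  obtain ⟨t, d, a', e', ht, hd, ha', he', hta, hde⟩ := (hgood ℓ hℓ p hp hpN hpℓ A hA).2 σ hσ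
  -- `(t, d) ∈ Y`
  obtain ⟨y, hyY, hy1, hy2⟩ := hY ℓ hℓ σ
  have hty : y.1 = t := Subtype.ext (by rw [← hy1, ht])
  have hdy : y.2 = d := Subtype.ext (by rw [← hy2, hd])
  -- `(a', e') ∈ Y` by pigeonhole over `L ∖ {p}`
  have hmem : (a', e') ∈ Y := by
    refine mem_of_infinite_congr hI Y (S := L \ {p}) Set.sdiff_subset
      (hL.sdiff (Set.finite_singleton p)) (a', e') fun ℓ' hℓ' => ?_
    have hℓ'L : ℓ' ∈ L := hℓ'.1
    have hpℓ' : p ≠ ℓ' := fun h => hℓ'.2 (by simp [h])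
    obtain ⟨t', d', a'', e'', ht', hd', ha'', he'', hta', hde'⟩ :=
      (hgood ℓ' hℓ'L p hp hpN hpℓ' A hA).2 σ hσ
    obtain ⟨y', hy'Y, hy'1, hy'2⟩ := hY ℓ' hℓ'L σ
    have e1 : y'.1 = t' := Subtype.ext (by rw [← hy'1, ht'])
    have e2 : y'.2 = d' := Subtype.ext (by rw [← hy'2, hd'])
    have e3 : a'' = a' := Subtype.ext (by rw [ha'', ha'])
    have e4 : e'' = e' := Subtype.ext (by rw [he'', he'])
    refine ⟨y', hy'Y, ?_, ?_⟩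
    · rw [e1, ← e3]; exact hta'
    · rw [e2, ← e4]; exact hde'
  have hyeq : y = (a', e') :=
    hF ℓ hℓ hℓF y hyY (a', e') hmem (by rw [hty]; exact hta) (by rw [hdy]; exact hde)
  constructor
  · rw [hy1, hyeq, ← ha']
  · rw [hy2, hyeq, ← he']

end Fermat.Agent.DS.N6
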