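/-
S48 prep / (N6)-LIFT, matrix instance (helper57).  Mathlib + `ApproxHom` only.

`O` a complete local ring with residue field `k`, `G` a finite group whose order is a unit of `O`.
Every homomorphism `ρ̄ : G →* GL ι k` lifts to a homomorphism `ρ : G →* GL ι O`.
(Deligne–Serre §8: a subgroup of `GL₂(𝔽_ℓ)` of order prime to `ℓ` lifts to characteristic `0`.)
-/
import Fermat.Agent.DS.N6.ApproxHom

set_option autoImplicit false

namespace Fermat.Agent.DS.N6

open IsLocalRing Matrix

variable {O : Type*} [CommRing O] [IsLocalRing O]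
variable {ι : Type*} [Fintype ι] [DecidableEq ι]

/-- matrices with all entries in `𝔪 ^ k` -/
def matIdeal (O : Type*) [CommRing O] [IsLocalRing O] (ι : Type*) (k : ℕ) :
    AddSubgroup (Matrix ι ι O) where
  carrier := {M | ∀ i j, M i j ∈ maximalIdeal O ^ k}
  zero_mem' := fun _ _ => Ideal.zero_mem _
  add_mem' := fun ha hb i j => Ideal.add_mem _ (ha i j) (hb i j)
  neg_mem' := fun ha i j => (Ideal.neg_mem_iff _).mpr (ha i j)

omit [Fintype ι] [DecidableEq ι] in
theorem mem_matIdeal {k : ℕ} {M : Matrix ι ι O} :
    M ∈ matIdeal O ι k ↔ ∀ i j, M i j ∈ maximalIdeal O ^ k := Iff.rfl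

variable [IsAdicComplete (maximalIdeal O) O]

/-- the `𝔪`-adic filtration of the matrix ring over a complete local ring -/
noncomputable def matFilt (O : Type*) [CommRing O] [IsLocalRing O]
    [IsAdicComplete (maximalIdeal O) O] (ι : Type*) [Fintype ι] [DecidableEq ι] :
    Filt (Matrix ι ι O) where
  I := matIdeal O ι
  zero_top := by
    ext M
    simp [mem_matIdeal, pow_zero, Ideal.one_eq_top]
  anti := fun hjk _ hM i j => Ideal.pow_le_pow_right hjk (hM i j)
  mul_mem := fun {j k a b} ha hb i l => by
    rw [Matrix.mul_apply, pow_add]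
    exact Ideal.sum_mem _ fun t _ => Ideal.mul_mem_mul (ha i t) (hb t l)
  left_mem := fun {k} x {a} ha i l => by
    rw [Matrix.mul_apply]
    exact Ideal.sum_mem _ fun t _ => Ideal.mul_mem_left _ _ (ha t l)
  right_mem := fun {k} x {a} ha i l => by
    rw [Matrix.mul_apply]
    exact Ideal.sum_mem _ fun t _ => Ideal.mul_mem_right _ _ (ha i t)
  sep := fun a ha => by
    ext i j
    refine IsHausdorff.haus' (I := maximalIdeal O) (a i j) fun n => ?_
    rw [SModEq.zero, smul_eq_mul, Ideal.mul_top]
    exact ha n i j
  complete := fun x hx => by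
    have htel : ∀ m n, m ≤ n → x n - x m ∈ matIdeal O ι m := by
      intro m n hmn
      induction n, hmn using Nat.le_induction with
      | base => simp
      | succ n hmn ih =>
        have e : x (n + 1) - x m = (x (n + 1) - x n) + (x n - x m) := by abel
        rw [e]
        refine (matIdeal O ι m).add_mem ?_ ih
        intro i j
        exact Ideal.pow_le_pow_right hmn (hx n i j)
    have hent : ∀ i j, ∃ L : O, ∀ n, x n i j ≡ L
        [SMOD (maximalIdeal O ^ n • ⊤ : Submodule O O)] := fun i j =>
      IsPrecomplete.prec' (I := maximalIdeal O) (fun n => x n i j) fun {m n} hmn => by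
        rw [SModEq.sub_mem, smul_eq_mul, Ideal.mul_top]
        have := htel m n hmn i j
        rw [Matrix.sub_apply] at this
        have h2 := (Ideal.neg_mem_iff _).mpr this
        rwa [neg_sub] at h2
    choose L hL using hent
    refine ⟨Matrix.of L, fun n i j => ?_⟩
    have := hL i j n
    rw [SModEq.sub_mem, smul_eq_mul, Ideal.mul_top] at this
    have h2 := (Ideal.neg_mem_iff _).mpr this
    rw [neg_sub] at h2
    simpa using h2

/-- **Lifting representations of finite groups of invertible order** over a complete local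
ring. -/
theorem exists_lift_GL (G : Type*) [Group G] [Finite G] (hG : IsUnit ((Nat.card G : ℕ) : O))
    (ρbar : G →* GL ι (ResidueField O)) :
    ∃ ρ : G →* GL ι O, ∀ g, Matrix.GeneralLinearGroup.map (residue O) (ρ g) = ρbar g := by
  classical
  have : Fintype G := Fintype.ofFinite G
  rw [Nat.card_eq_fintype_card] at hG
  -- the inverse of `|G|` in the matrix ring
  set ν : Matrix ι ι O := algebraMap O (Matrix ι ι O) (↑hG.unit⁻¹ : O) with hν
  have hνc : ν * (Fintype.card G : Matrix ι ι O) = 1 := by
    have e : (Fintype.card G : Matrix ι ι O) = algebraMap O (Matrix ι ι O) (Fintype.card G : O) :=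
      (map_natCast _ _).symm
    rw [hν, e, ← map_mul]
    have : (↑hG.unit⁻¹ : O) * (Fintype.card G : O) = 1 := by
      have h := hG.unit.inv_mul
      rwa [IsUnit.unit_spec] at h
    rw [this, map_one]
  -- entrywise set-theoretic lift
  let f : ResidueField O → O := Function.surjInv (residue_surjective (R := O))
  have hf : ∀ x, residue O (f x) = x := Function.surjInv_eq _
  let r0 : G → Matrix ι ι O := fun g => ((ρbar g : GL ι (ResidueField O)) :
    Matrix ι ι (ResidueField O)).map f
  have hr0 : ∀ g, (residue O).mapMatrix (r0 g) =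
      ((ρbar g : GL ι (ResidueField O)) : Matrix ι ι (ResidueField O)) := by
    intro g
    ext i j
    simp [r0, hf]
  have hunit : ∀ g, IsUnit (r0 g) := by
    intro g
    rw [Matrix.isUnit_iff_isUnit_det]
    have h1 : residue O (r0 g).det =
        ((ρbar g : GL ι (ResidueField O)) : Matrix ι ι (ResidueField O)).det := by
      rw [RingHom.map_det, hr0]
    have h2 : IsUnit ((ρbar g : GL ι (ResidueField O)) : Matrix ι ι (ResidueField O)).det :=
      (Matrix.isUnit_iff_isUnit_det _).mp (ρbar g).isUnit
    by_contra hnu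
    have : (r0 g).det ∈ maximalIdeal O := (IsLocalRing.mem_maximalIdeal _).mpr hnu
    rw [← IsLocalRing.residue_eq_zero_iff, h1] at this
    rw [this] at h2
    exact not_isUnit_zero h2
  let r : G → (Matrix ι ι O)ˣ := fun g => (hunit g).unit
  have hr : ∀ g, ((r g : (Matrix ι ι O)ˣ) : Matrix ι ι O) = r0 g := fun g => (hunit g).unit_spec
  have herr : ∀ g h, err r g h ∈ (matFilt O ι).I 1 := by
    intro g h i j
    rw [pow_one, ← IsLocalRing.residue_eq_zero_iff]
    have e : (residue O).mapMatrix (err r g h) = 0 := by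
      unfold err
      rw [map_sub, map_mul, hr, hr, hr, hr0, hr0, hr0, map_mul, Units.val_mul, sub_self]
    have := congrFun (congrFun e i) j
    simpa using this
  obtain ⟨ρ, hρ⟩ := exists_monoidHom_of_err_mem hνc (matFilt O ι) r herr
  refine ⟨ρ, fun g => ?_⟩
  ext i j
  rw [Matrix.GeneralLinearGroup.map_apply]
  have h1 := hρ g i j
  rw [pow_one, ← IsLocalRing.residue_eq_zero_iff, Matrix.sub_apply, map_sub, sub_eq_zero, hr] at h1
  rw [h1]
  have := congrFun (congrFun (hr0 g) i) j
  simpa using this

omit [IsAdicComplete (maximalIdeal O) O] in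
/-- in a local ring with residue characteristic `ℓ`, integers prime to `ℓ` are units -/
theorem isUnit_natCast_of_not_dvd (ℓ : ℕ) [CharP (ResidueField O) ℓ] {n : ℕ} (hn : ¬ ℓ ∣ n) :
    IsUnit ((n : ℕ) : O) := by
  by_contra hnu
  have h1 : ((n : ℕ) : O) ∈ maximalIdeal O := (IsLocalRing.mem_maximalIdeal _).mpr hnu
  rw [← IsLocalRing.residue_eq_zero_iff, map_natCast, CharP.cast_eq_zero_iff (ResidueField O) ℓ] at h1
  exact hn h1

/-- **Deligne–Serre §8 form**: a finite group of order prime to the residue characteristic `ℓ`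
lifts from `GL ι k` to `GL ι O`. -/
theorem exists_lift_GL_of_not_dvd (ℓ : ℕ) [CharP (ResidueField O) ℓ] (G : Type*) [Group G]
    [Finite G] (hG : ¬ ℓ ∣ Nat.card G) (ρbar : G →* GL ι (ResidueField O)) :
    ∃ ρ : G →* GL ι O, ∀ g, Matrix.GeneralLinearGroup.map (residue O) (ρ g) = ρbar g :=
  exists_lift_GL G (isUnit_natCast_of_not_dvd ℓ hG) ρbar

omit [IsAdicComplete (maximalIdeal O) O] in
/-- the lift of an injective representation is injective -/
theorem injective_of_lift {G : Type*} [Group G] {ρbar : G →* GL ι (ResidueField O)}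
    (hinj : Function.Injective ρbar) {ρ : G →* GL ι O}
    (hρ : ∀ g, Matrix.GeneralLinearGroup.map (residue O) (ρ g) = ρbar g) :
    Function.Injective ρ := by
  intro g h hgh
  apply hinj
  rw [← hρ g, ← hρ h, hgh]

end Fermat.Agent.DS.N6
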