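/-
GATE-N / S48-(N6)-REAL (helper51): **GateLiftC** — a homomorphism `ρbar : G →* GL₂(𝔽_ℓ)` of a finite
group of order prime to `ℓ` is the reduction of a COMPLEX representation `r : G →* GL₂(ℂ)` whose
traces and determinants are the images of the algebraic integers `ζ ^ a + ζ ^ b`, `ζ ^ (a + b)`
(`ζ ∈ 𝓞 E` a primitive `m`-th root of unity, `g ^ m = 1` on `G`) and reduce to those of `ρbar`
under `residueHom ℓ j : 𝓞 E →+* ZMod ℓ`.

Inputs: helper57's `exists_lift_GL_of_not_dvd` at `O := ℤ_[ℓ]`, and from `Emb.lean` an embedding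
`j : E →+* ℚ_[ℓ]` with a field embedding `ι : ℚ_[ℓ] →+* ℂ`, `ι ∘ j = ι₀`.
No Teichmüller lifts, no Witt vectors: `X ^ m - 1` already splits in `j E ⊆ ℚ_[ℓ]`, so the
eigenvalues of the lifted matrices are powers of `j ζ` (`exists_pow_trace_det`).
-/
import Mathlib
import Fermat.Agent.DS.N6.LiftGL
import Fermat.Agent.DS.N6.Emb
set_option autoImplicit false
open Polynomial NumberField IsLocalRing

namespace Fermat.Agent.DS.N6

theorem charP_residueField_padicInt (ℓ : ℕ) [Fact ℓ.Prime] : CharP (ResidueField ℤ_[ℓ]) ℓ :=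
  charP_of_injective_ringHom (f := (PadicInt.residueField (p := ℓ)).symm.toRingHom)
    (PadicInt.residueField (p := ℓ)).symm.injective ℓ

/-- A `2 × 2` matrix of finite order `m` over a field containing a primitive `m`-th root of unity
`ζ` has trace `ζ ^ a + ζ ^ b` and determinant `ζ ^ (a + b)`. -/
theorem exists_pow_trace_det {F : Type*} [Field F] (M : Matrix (Fin 2) (Fin 2) F) {m : ℕ}
    (hm : 0 < m) (hM : M ^ m = 1) {ζ : F} (hζ : IsPrimitiveRoot ζ m) :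
    ∃ a b : ℕ, a < m ∧ b < m ∧ M.trace = ζ ^ a + ζ ^ b ∧ M.det = ζ ^ (a + b) := by
  classical
  let Kb := AlgebraicClosure F
  let φ : F →+* Kb := algebraMap F Kb
  have hφ : Function.Injective φ := φ.injective
  set M' : Matrix (Fin 2) (Fin 2) Kb := φ.mapMatrix M with hM'
  have hM'm : M' ^ m = 1 := by rw [hM', ← map_pow, hM, map_one]
  have hζ' : IsPrimitiveRoot (φ ζ) m := hζ.map_of_injective hφ
  -- every root of the characteristic polynomial is a power of `φ ζ`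
  have hroot : ∀ α ∈ M'.charpoly.roots, ∃ i : ℕ, i < m ∧ α = φ ζ ^ i := by
    intro α hα
    have h1 : IsRoot M'.charpoly α := (mem_roots (M'.charpoly_monic.ne_zero)).mp hα
    have h2 : α ∈ spectrum Kb M' := Matrix.mem_spectrum_iff_isRoot_charpoly.mpr h1
    have h3 : α ^ m ∈ spectrum Kb (M' ^ m) := by
      have := spectrum.subset_polynomial_aeval M' (X ^ m : Kb[X]) ⟨α, h2, rfl⟩
      simpa using this
    rw [hM'm, spectrum.one_eq, Set.mem_singleton_iff] at h3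
    have : NeZero m := ⟨hm.ne'⟩
    obtain ⟨i, him, hi⟩ := hζ'.eq_pow_of_pow_eq_one h3
    exact ⟨i, him, hi.symm⟩
  have hsplit : M'.charpoly.Splits := IsAlgClosed.splits _
  have hcard : Multiset.card M'.charpoly.roots = 2 := by
    rw [← hsplit.natDegree_eq_card_roots, Matrix.charpoly_natDegree_eq_dim, Fintype.card_fin]
  obtain ⟨x, y, hxy⟩ := Multiset.card_eq_two.mp hcard
  obtain ⟨a, ham, ha⟩ := hroot x (by rw [hxy]; simp)
  obtain ⟨b, hbm, hb⟩ := hroot y (by rw [hxy]; simp)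
  have htr : M'.trace = x + y := by
    rw [Matrix.trace_eq_sum_roots_charpoly_of_splits hsplit, hxy]; simp
  have hdet : M'.det = x * y := by
    rw [Matrix.det_eq_prod_roots_charpoly_of_splits hsplit, hxy]; simp
  have htr' : M'.trace = φ M.trace := by rw [hM']; exact (AddMonoidHom.map_trace φ M).symm
  have hdet' : M'.det = φ M.det := by rw [hM']; exact (RingHom.map_det φ M).symm
  refine ⟨a, b, ham, hbm, hφ ?_, hφ ?_⟩
  · rw [← htr', htr, ha, hb, map_add, map_pow, map_pow]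
  · rw [← hdet', hdet, ha, hb, map_pow, pow_add]

/-- The matrix of the image of `u : GL n R` under a ring homomorphism. -/
theorem coe_GLmap {n : Type*} [DecidableEq n] [Fintype n] {R S : Type*} [CommRing R] [CommRing S]
    (f : R →+* S) (u : GL n R) :
    ((Matrix.GeneralLinearGroup.map f u : GL n S) : Matrix n n S) =
      f.mapMatrix (u : Matrix n n R) := by
  ext i j
  rw [Matrix.GeneralLinearGroup.map_apply]
  rfl

/-- **GateLiftC** (Deligne–Serre §8.3 + realisation over `ℂ`). -/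
theorem exists_complex_lift {E : Type*} [Field E] [NumberField E] (ι₀ : E →+* ℂ) (ℓ : ℕ)
    [Fact ℓ.Prime] (j : E →+* ℚ_[ℓ]) (ι : ℚ_[ℓ] →+* ℂ) (hι : ι.comp j = ι₀)
    (G : Type*) [Group G] [Finite G] (hG : ¬ ℓ ∣ Nat.card G) {m : ℕ} (hm : 0 < m)
    (hGm : ∀ g : G, g ^ m = 1) (ζ : 𝓞 E) (hζ : IsPrimitiveRoot ζ m)
    (ρbar : G →* GL (Fin 2) (ZMod ℓ)) :
    ∃ r : G →* GL (Fin 2) ℂ, ∀ g : G, ∃ a b : ℕ, a < m ∧ b < m ∧
      ((r g : GL (Fin 2) ℂ) : Matrix (Fin 2) (Fin 2) ℂ).trace = ι₀ ((ζ ^ a + ζ ^ b : 𝓞 E) : E) ∧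
      ((r g : GL (Fin 2) ℂ) : Matrix (Fin 2) (Fin 2) ℂ).det = ι₀ ((ζ ^ (a + b) : 𝓞 E) : E) ∧
      ((ρbar g : GL (Fin 2) (ZMod ℓ)) : Matrix (Fin 2) (Fin 2) (ZMod ℓ)).trace =
        residueHom ℓ j (ζ ^ a + ζ ^ b) ∧
      ((ρbar g : GL (Fin 2) (ZMod ℓ)) : Matrix (Fin 2) (Fin 2) (ZMod ℓ)).det =
        residueHom ℓ j (ζ ^ (a + b)) := by
  classical
  have := charP_residueField_padicInt ℓ
  let e : ResidueField ℤ_[ℓ] ≃+* ZMod ℓ := PadicInt.residueField
  let ρbar' : G →* GL (Fin 2) (ResidueField ℤ_[ℓ]) :=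
    (Matrix.GeneralLinearGroup.map e.symm.toRingHom).comp ρbar
  obtain ⟨ρ₀, hρ₀⟩ := exists_lift_GL_of_not_dvd (O := ℤ_[ℓ]) ℓ G hG ρbar'
  let c : ℤ_[ℓ] →+* ℚ_[ℓ] := PadicInt.Coe.ringHom
  refine ⟨(Matrix.GeneralLinearGroup.map (ι.comp c)).comp ρ₀, fun g => ?_⟩
  -- the matrix over `ℤ_ℓ` and over `ℚ_ℓ`
  set M : Matrix (Fin 2) (Fin 2) ℤ_[ℓ] :=
    ((ρ₀ g : GL (Fin 2) ℤ_[ℓ]) : Matrix (Fin 2) (Fin 2) ℤ_[ℓ]) with hMdef
  set Mq : Matrix (Fin 2) (Fin 2) ℚ_[ℓ] := c.mapMatrix M with hMq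
  have hMm : M ^ m = 1 := by
    have h1 : (ρ₀ g) ^ m = 1 := by rw [← map_pow, hGm, map_one]
    have h2 := congrArg (fun u : GL (Fin 2) ℤ_[ℓ] => (u : Matrix (Fin 2) (Fin 2) ℤ_[ℓ])) h1
    simpa using h2
  have hMqm : Mq ^ m = 1 := by rw [hMq, ← map_pow, hMm, map_one]
  have hinj : Function.Injective fun x : 𝓞 E => j (x : E) :=
    j.injective.comp RingOfIntegers.coe_injective
  have hζq : IsPrimitiveRoot (j (ζ : E)) m :=
    hζ.map_of_injective (f := j.comp (algebraMap (𝓞 E) E)) hinj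
  obtain ⟨a, b, ham, hbm, htr, hdet⟩ := exists_pow_trace_det Mq hm hMqm hζq
  -- transport to `ℂ`
  have hrg : (((Matrix.GeneralLinearGroup.map (ι.comp c)).comp ρ₀ g : GL (Fin 2) ℂ) :
      Matrix (Fin 2) (Fin 2) ℂ) = ι.mapMatrix Mq := by
    rw [MonoidHom.comp_apply, coe_GLmap, hMq]
    ext i j
    rfl
  have hιj : ∀ x : E, ι (j x) = ι₀ x := fun x => by rw [← hι]; rfl
  -- the trace and determinant of `M` are images of algebraic integers
  have htrM : M.trace = padicIntHom ℓ j (ζ ^ a + ζ ^ b) := by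
    apply PadicInt.ext
    have h1 : ((M.trace : ℤ_[ℓ]) : ℚ_[ℓ]) = Mq.trace := AddMonoidHom.map_trace c M
    rw [h1, htr, coe_padicIntHom]
    push_cast
    rw [map_add, map_pow, map_pow]
  have hdetM : M.det = padicIntHom ℓ j (ζ ^ (a + b)) := by
    apply PadicInt.ext
    have h1 : ((M.det : ℤ_[ℓ]) : ℚ_[ℓ]) = Mq.det := RingHom.map_det c M
    rw [h1, hdet, coe_padicIntHom]
    push_cast
    rw [map_pow]
  -- the reduction of `M`
  have hred : ((ρbar g : GL (Fin 2) (ZMod ℓ)) : Matrix (Fin 2) (Fin 2) (ZMod ℓ)) =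
      (PadicInt.toZMod (p := ℓ)).mapMatrix M := by
    have h1 := hρ₀ g
    have h2 : ((ρbar' g : GL (Fin 2) (ResidueField ℤ_[ℓ])) : Matrix (Fin 2) (Fin 2) _) =
        (residue ℤ_[ℓ]).mapMatrix M := by rw [← h1, coe_GLmap]
    have h3 : ((ρbar' g : GL (Fin 2) (ResidueField ℤ_[ℓ])) : Matrix (Fin 2) (Fin 2) _) =
        e.symm.toRingHom.mapMatrix ((ρbar g : GL (Fin 2) (ZMod ℓ)) : Matrix _ _ _) := by
      change ((Matrix.GeneralLinearGroup.map e.symm.toRingHom (ρbar g) :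
        GL (Fin 2) (ResidueField ℤ_[ℓ])) : Matrix (Fin 2) (Fin 2) (ResidueField ℤ_[ℓ])) = _
      rw [coe_GLmap]
    ext i k
    have h4 := congrFun (congrFun (h3.symm.trans h2) i) k
    simp only [RingHom.mapMatrix_apply, Matrix.map_apply] at h4 ⊢
    rw [PadicInt.toZMod_eq_residueField_comp_residue, RingHom.comp_apply, ← h4]
    exact (e.apply_symm_apply _).symm
  refine ⟨a, b, ham, hbm, ?_, ?_, ?_, ?_⟩
  · rw [hrg, RingHom.mapMatrix_apply, ← AddMonoidHom.map_trace ι Mq, htr, ← hιj]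
    push_cast
    simp only [map_add, map_pow]
  · rw [hrg, ← RingHom.map_det ι Mq, hdet, ← hιj]
    push_cast
    simp only [map_pow]
  · rw [hred, RingHom.mapMatrix_apply, ← AddMonoidHom.map_trace (PadicInt.toZMod (p := ℓ)) M, htrM]
    rfl
  · rw [hred, ← RingHom.map_det (PadicInt.toZMod (p := ℓ)) M, hdetM]
    rfl

end Fermat.Agent.DS.N6
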