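/-
GATE-N / S48-(N6)-MAIN (helper51): Deligne–Serre §8, steps (4)–(7) of the TOP plan, complete.

From a family of mod `ℓ` representations `ρbar : G_ℚ → GL₂(𝔽_ℓ)` (one for every ring homomorphism
`φ : 𝓞 E →+* ZMod ℓ`, `ℓ` outside a finite set) of UNIFORMLY BOUNDED image, unramified outside `N ℓ`,
with Frobenius traces / determinants `φ (a p)`, `φ (e p)`, we produce ONE complex representation
`ρ : G_ℚ → GL₂(ℂ)` of finite level with the local conclusion of the frozen S48 at EVERY `p ∤ N`: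
unramified, `tr ρ(Frob_p) = a p`, `det ρ(Frob_p) = e p`.  Moreover every `tr ρ(σ)` is a sum of two
`m`-th roots of unity.

Ingredients: `Emb.lean` (infinitely many `ℓ` with `E ↪ ℚ_ℓ ↪ ℂ`), `Real.lean` (GateLiftC, on
helper57's `LiftGL`), the pigeonhole of `Glue.lean` (restated for an abstract coefficient ring),
helper4's two-prime argument `DS/N7/TwoPrimes.goodAt_of_two` (FL1 only).
-/
import Mathlib
import Fermat.Agent.DS.N6.Glue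
import Fermat.Agent.DS.N6.Real
import Fermat.Agent.DS.N7.TwoPrimes

set_option autoImplicit false

open NumberField

namespace Fermat.Agent.DS.N6

local notation "Γℚ" => (AlgebraicClosure ℚ ≃ₐ[ℚ] AlgebraicClosure ℚ)

open Fermat.Agent.DS.N7 (GoodAt)

/-- The pigeonhole step of `Glue.lean` for an abstract coefficient ring `O` with an injective
ring homomorphism `κ : O →+* ℂ`. -/
theorem exists_finset_forall_goodAt {O : Type*} [CommRing O] (κ : O →+* ℂ)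
    (hκ : Function.Injective κ) (N : ℕ) (a e : ℕ → ℂ)
    (L : Set ℕ) (hL : L.Infinite) (I : ℕ → Ideal O)
    (hI : ∀ x : O, x ≠ 0 → {ℓ ∈ L | x ∈ I ℓ}.Finite)
    (Y : Finset (O × O)) (ρ : ℕ → Γℚ →* GL (Fin 2) ℂ)
    (hY : ∀ ℓ ∈ L, ∀ σ : Γℚ, ∃ y ∈ Y,
      ((ρ ℓ σ : GL (Fin 2) ℂ) : Matrix (Fin 2) (Fin 2) ℂ).trace = κ y.1 ∧
      ((ρ ℓ σ : GL (Fin 2) ℂ) : Matrix (Fin 2) (Fin 2) ℂ).det = κ y.2)
    (hgood : ∀ ℓ ∈ L, ∀ p : ℕ, p.Prime → ¬ p ∣ N → p ≠ ℓ →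
      ∀ A : ValuationSubring (AlgebraicClosure ℚ), A.LiesOverPrime p →
        (∀ σ ∈ A.inertiaSubgroupIn ℚ, ρ ℓ σ = 1) ∧
        ∀ σ : Γℚ, A.IsFrobeniusAt σ p → ∃ t d a' e' : O,
          κ t = ((ρ ℓ σ : GL (Fin 2) ℂ) : Matrix (Fin 2) (Fin 2) ℂ).trace ∧
          κ d = ((ρ ℓ σ : GL (Fin 2) ℂ) : Matrix (Fin 2) (Fin 2) ℂ).det ∧
          κ a' = a p ∧ κ e' = e p ∧ t - a' ∈ I ℓ ∧ d - e' ∈ I ℓ) :
    ∃ F : Finset ℕ, ∀ ℓ ∈ L, ℓ ∉ F → ∀ p : ℕ, p.Prime → ¬ p ∣ N → p ≠ ℓ →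
      GoodAt (ρ ℓ) p (a p) (e p) := by
  classical
  obtain ⟨F, hF⟩ := exists_finset_separating hI Y
  refine ⟨F, fun ℓ hℓ hℓF p hp hpN hpℓ A hA => ⟨(hgood ℓ hℓ p hp hpN hpℓ A hA).1, fun σ hσ => ?_⟩⟩
  obtain ⟨t, d, a', e', ht, hd, ha', he', hta, hde⟩ := (hgood ℓ hℓ p hp hpN hpℓ A hA).2 σ hσ
  obtain ⟨y, hyY, hy1, hy2⟩ := hY ℓ hℓ σ
  have hty : y.1 = t := hκ (by rw [← hy1, ht])
  have hdy : y.2 = d := hκ (by rw [← hy2, hd])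
  have hmem : (a', e') ∈ Y := by
    refine mem_of_infinite_congr hI Y (S := L \ {p}) Set.sdiff_subset
      (hL.sdiff (Set.finite_singleton p)) (a', e') fun ℓ' hℓ' => ?_
    have hℓ'L : ℓ' ∈ L := hℓ'.1
    have hpℓ' : p ≠ ℓ' := fun h => hℓ'.2 (by simp [h])
    obtain ⟨t', d', a'', e'', ht', hd', ha'', he'', hta', hde'⟩ :=
      (hgood ℓ' hℓ'L p hp hpN hpℓ' A hA).2 σ hσ
    obtain ⟨y', hy'Y, hy'1, hy'2⟩ := hY ℓ' hℓ'L σ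
    have e1 : y'.1 = t' := hκ (by rw [← hy'1, ht'])
    have e2 : y'.2 = d' := hκ (by rw [← hy'2, hd'])
    have e3 : a'' = a' := hκ (by rw [ha'', ha'])
    have e4 : e'' = e' := hκ (by rw [he'', he'])
    refine ⟨y', hy'Y, ?_, ?_⟩
    · rw [e1, ← e3]; exact hta'
    · rw [e2, ← e4]; exact hde'
  have hyeq : y = (a', e') :=
    hF ℓ hℓ hℓF y hyY (a', e') hmem (by rw [hty]; exact hta) (by rw [hdy]; exact hde)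
  constructor
  · rw [hy1, hyeq, ← ha']
  · rw [hy2, hyeq, ← he']

section PerPlace

variable {E : Type*} [Field E] [NumberField E]

/-- The complex representation attached to ONE `ℓ`-adic place. -/
theorem exists_rho_of_place (N : ℕ) (a e : ℕ → ℂ) (ι₀ : E →+* ℂ)
    (A : ℕ) {m : ℕ} (hm : 0 < m) (hAm : ∀ k : ℕ, 0 < k → k ≤ A → k ∣ m)
    (ζ : 𝓞 E) (hζ : IsPrimitiveRoot ζ m)
    (ℓ : ℕ) [Fact ℓ.Prime] (hℓA : A < ℓ) (j : E →+* ℚ_[ℓ]) (ι : ℚ_[ℓ] →+* ℂ)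
    (hι : ι.comp j = ι₀)
    (ρbar : Γℚ →* GL (Fin 2) (ZMod ℓ)) (hfin : GaloisFactorsThroughFiniteLevel ρbar)
    (hcard : Nat.card ρbar.range ≤ A)
    (hloc : ∀ p : ℕ, p.Prime → ¬ p ∣ N → p ≠ ℓ →
      ∀ V : ValuationSubring (AlgebraicClosure ℚ), V.LiesOverPrime p →
        (∀ σ ∈ V.inertiaSubgroupIn ℚ, ρbar σ = 1) ∧
        ∀ σ : Γℚ, V.IsFrobeniusAt σ p → ∀ x y : 𝓞 E, ι₀ (x : E) = a p → ι₀ (y : E) = e p →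
          ((ρbar σ : GL (Fin 2) (ZMod ℓ)) : Matrix (Fin 2) (Fin 2) (ZMod ℓ)).trace =
            residueHom ℓ j x ∧
          ((ρbar σ : GL (Fin 2) (ZMod ℓ)) : Matrix (Fin 2) (Fin 2) (ZMod ℓ)).det =
            residueHom ℓ j y) :
    ∃ ρ : Γℚ →* GL (Fin 2) ℂ, GaloisFactorsThroughFiniteLevel ρ ∧
      (∀ σ : Γℚ, ∃ a' b' : ℕ, a' < m ∧ b' < m ∧
        ((ρ σ : GL (Fin 2) ℂ) : Matrix (Fin 2) (Fin 2) ℂ).trace =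
          ι₀ ((ζ ^ a' + ζ ^ b' : 𝓞 E) : E) ∧
        ((ρ σ : GL (Fin 2) ℂ) : Matrix (Fin 2) (Fin 2) ℂ).det = ι₀ ((ζ ^ (a' + b') : 𝓞 E) : E)) ∧
      ∀ p : ℕ, p.Prime → ¬ p ∣ N → p ≠ ℓ →
        ∀ V : ValuationSubring (AlgebraicClosure ℚ), V.LiesOverPrime p →
          (∀ σ ∈ V.inertiaSubgroupIn ℚ, ρ σ = 1) ∧
          ∀ σ : Γℚ, V.IsFrobeniusAt σ p → ∀ x y : 𝓞 E, ι₀ (x : E) = a p → ι₀ (y : E) = e p →
            ∃ t d : 𝓞 E,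
              ι₀ (t : E) = ((ρ σ : GL (Fin 2) ℂ) : Matrix (Fin 2) (Fin 2) ℂ).trace ∧
              ι₀ (d : E) = ((ρ σ : GL (Fin 2) ℂ) : Matrix (Fin 2) (Fin 2) ℂ).det ∧
              residueHom ℓ j (t - x) = 0 ∧ residueHom ℓ j (d - y) = 0 := by
  classical
  have hpos : 0 < Nat.card ρbar.range := Nat.card_pos
  have hℓG : ¬ ℓ ∣ Nat.card ρbar.range := fun h =>
    absurd (Nat.le_of_dvd hpos h) (by omega)
  have hGm : ∀ g : ρbar.range, g ^ m = 1 := by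
    intro g
    obtain ⟨k, hk⟩ := hAm _ hpos hcard
    rw [hk, pow_mul, pow_card_eq_one', one_pow]
  obtain ⟨r, hr⟩ := exists_complex_lift ι₀ ℓ j ι hι ρbar.range hℓG hm hGm ζ hζ ρbar.range.subtype
  refine ⟨r.comp ρbar.rangeRestrict, ?_, ?_, ?_⟩
  · obtain ⟨L, hL, h⟩ := hfin
    refine ⟨L, hL, fun σ hσ => ?_⟩
    have h1 : ρbar.rangeRestrict σ = 1 := Subtype.ext (h σ hσ)
    rw [MonoidHom.comp_apply, h1, map_one]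
  · intro σ
    obtain ⟨a', b', ha', hb', h1, h2, -, -⟩ := hr (ρbar.rangeRestrict σ)
    exact ⟨a', b', ha', hb', h1, h2⟩
  · intro p hp hpN hpℓ V hV
    obtain ⟨hin, hfr⟩ := hloc p hp hpN hpℓ V hV
    refine ⟨fun σ hσ => ?_, fun σ hσ x y hx hy => ?_⟩
    · have h1 : ρbar.rangeRestrict σ = 1 := Subtype.ext (hin σ hσ)
      rw [MonoidHom.comp_apply, h1, map_one]
    · obtain ⟨a', b', -, -, h1, h2, h3, h4⟩ := hr (ρbar.rangeRestrict σ)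
      obtain ⟨h5, h6⟩ := hfr σ hσ x y hx hy
      have e1 : (ρbar.range.subtype (ρbar.rangeRestrict σ)) = ρbar σ := rfl
      rw [e1] at h3 h4
      refine ⟨ζ ^ a' + ζ ^ b', ζ ^ (a' + b'), h1.symm, h2.symm, ?_, ?_⟩
      · rw [map_sub, ← h3, ← h5, sub_self]
      · rw [map_sub, ← h4, ← h6, sub_self]

end PerPlace

section Main

variable {E : Type*} [Field E] [NumberField E]

/-- **Deligne–Serre §8** (steps (4)–(7)): from mod `ℓ` representations of uniformly bounded image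
to one complex representation with the S48 local conclusion at every `p ∤ N`. -/
theorem exists_complex_galoisRep (N : ℕ) (hN : N ≠ 0) (a e : ℕ → ℂ) (ι₀ : E →+* ℂ)
    (ha : ∀ p : ℕ, p.Prime → ¬ p ∣ N → ∃ x : 𝓞 E, ι₀ (x : E) = a p)
    (he : ∀ p : ℕ, p.Prime → ¬ p ∣ N → ∃ x : 𝓞 E, ι₀ (x : E) = e p)
    (A : ℕ) {m : ℕ} (hm : 0 < m) (hAm : ∀ k : ℕ, 0 < k → k ≤ A → k ∣ m)
    (ζ : 𝓞 E) (hζ : IsPrimitiveRoot ζ m) (B₀ : Finset ℕ)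
    (H : ∀ ℓ : ℕ, ℓ.Prime → ℓ ∉ B₀ → ∀ φ : 𝓞 E →+* ZMod ℓ,
      ∃ ρbar : Γℚ →* GL (Fin 2) (ZMod ℓ), GaloisFactorsThroughFiniteLevel ρbar ∧
        Nat.card ρbar.range ≤ A ∧
        ∀ p : ℕ, p.Prime → ¬ p ∣ N → p ≠ ℓ →
          ∀ V : ValuationSubring (AlgebraicClosure ℚ), V.LiesOverPrime p →
            (∀ σ ∈ V.inertiaSubgroupIn ℚ, ρbar σ = 1) ∧
            ∀ σ : Γℚ, V.IsFrobeniusAt σ p → ∀ x y : 𝓞 E, ι₀ (x : E) = a p → ι₀ (y : E) = e p →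
              ((ρbar σ : GL (Fin 2) (ZMod ℓ)) : Matrix (Fin 2) (Fin 2) (ZMod ℓ)).trace = φ x ∧
              ((ρbar σ : GL (Fin 2) (ZMod ℓ)) : Matrix (Fin 2) (Fin 2) (ZMod ℓ)).det = φ y) :
    ∃ ρ : Γℚ →* GL (Fin 2) ℂ, GaloisFactorsThroughFiniteLevel ρ ∧
      (∀ σ : Γℚ, ∃ a' b' : ℕ, a' < m ∧ b' < m ∧
        ((ρ σ : GL (Fin 2) ℂ) : Matrix (Fin 2) (Fin 2) ℂ).trace =
          ι₀ ((ζ ^ a' + ζ ^ b' : 𝓞 E) : E) ∧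
        ((ρ σ : GL (Fin 2) ℂ) : Matrix (Fin 2) (Fin 2) ℂ).det = ι₀ ((ζ ^ (a' + b') : 𝓞 E) : E)) ∧
      ∀ p : ℕ, p.Prime → ¬ p ∣ N → GoodAt ρ p (a p) (e p) := by
  classical
  -- the coefficient ring and its embedding
  let κ : 𝓞 E →+* ℂ := ι₀.comp (algebraMap (𝓞 E) E)
  have hκ : Function.Injective κ := ι₀.injective.comp RingOfIntegers.coe_injective
  -- the places
  obtain ⟨L₀, hL₀, hplace⟩ := exists_padic_places E ι₀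
  set L : Set ℕ := L₀ \ ((B₀ : Set ℕ) ∪ (Finset.range (A + 1) : Set ℕ)) with hLdef
  have hL : L.Infinite :=
    hL₀.sdiff ((B₀.finite_toSet).union (Finset.range (A + 1)).finite_toSet)
  -- the family of complex representations
  have hfam : ∀ ℓ ∈ L, ∃ (ρ : Γℚ →* GL (Fin 2) ℂ) (I : Ideal (𝓞 E)),
      GaloisFactorsThroughFiniteLevel ρ ∧ ℓ.Prime ∧ (∃ φ : 𝓞 E →+* ZMod ℓ, RingHom.ker φ = I) ∧
      (∀ σ : Γℚ, ∃ a' b' : ℕ, a' < m ∧ b' < m ∧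
        ((ρ σ : GL (Fin 2) ℂ) : Matrix (Fin 2) (Fin 2) ℂ).trace =
          ι₀ ((ζ ^ a' + ζ ^ b' : 𝓞 E) : E) ∧
        ((ρ σ : GL (Fin 2) ℂ) : Matrix (Fin 2) (Fin 2) ℂ).det = ι₀ ((ζ ^ (a' + b') : 𝓞 E) : E)) ∧
      ∀ p : ℕ, p.Prime → ¬ p ∣ N → p ≠ ℓ →
        ∀ V : ValuationSubring (AlgebraicClosure ℚ), V.LiesOverPrime p →
          (∀ σ ∈ V.inertiaSubgroupIn ℚ, ρ σ = 1) ∧
          ∀ σ : Γℚ, V.IsFrobeniusAt σ p → ∀ x y : 𝓞 E, ι₀ (x : E) = a p → ι₀ (y : E) = e p →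
            ∃ t d : 𝓞 E,
              ι₀ (t : E) = ((ρ σ : GL (Fin 2) ℂ) : Matrix (Fin 2) (Fin 2) ℂ).trace ∧
              ι₀ (d : E) = ((ρ σ : GL (Fin 2) ℂ) : Matrix (Fin 2) (Fin 2) ℂ).det ∧
              t - x ∈ I ∧ d - y ∈ I := by
    intro ℓ hℓ
    obtain ⟨hfact, j, ι, hι⟩ := hplace ℓ hℓ.1
    have hℓB : ℓ ∉ B₀ := fun h => hℓ.2 (Or.inl (Finset.mem_coe.mpr h))
    have hℓA : A < ℓ := by
      by_contra hcon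
      exact hℓ.2 (Or.inr (Finset.mem_coe.mpr (Finset.mem_range.mpr (by omega))))
    obtain ⟨ρbar, hfin, hcard, hloc⟩ := H ℓ hfact.out hℓB (residueHom ℓ j)
    obtain ⟨ρ, h1, h2, h3⟩ := exists_rho_of_place N a e ι₀ A hm hAm ζ hζ ℓ hℓA j ι hι ρbar hfin
      hcard hloc
    refine ⟨ρ, RingHom.ker (residueHom ℓ j), h1, hfact.out, ⟨residueHom ℓ j, rfl⟩, h2, ?_⟩
    intro p hp hpN hpℓ V hV
    refine ⟨(h3 p hp hpN hpℓ V hV).1, fun σ hσ x y hx hy => ?_⟩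
    obtain ⟨t, d, ht, hd, htx, hdy⟩ := (h3 p hp hpN hpℓ V hV).2 σ hσ x y hx hy
    exact ⟨t, d, ht, hd, (RingHom.mem_ker).mpr htx, (RingHom.mem_ker).mpr hdy⟩
  choose! ρ I hρ using hfam
  -- the finite set of candidate (trace, det) pairs
  let Y : Finset (𝓞 E × 𝓞 E) := (Finset.range m ×ˢ Finset.range m).image
    fun ab : ℕ × ℕ => (ζ ^ ab.1 + ζ ^ ab.2, ζ ^ (ab.1 + ab.2))
  have hI : ∀ x : 𝓞 E, x ≠ 0 → {ℓ ∈ L | x ∈ I ℓ}.Finite := by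
    intro x hx
    refine (finite_setOf_exists_ringHom_eq_zero x hx).subset ?_
    rintro ℓ ⟨hℓ, hxI⟩
    obtain ⟨-, hprime, ⟨φ, hφ⟩, -, -⟩ := hρ ℓ hℓ
    exact ⟨φ, hprime, by rw [← hφ] at hxI; exact (RingHom.mem_ker).mp hxI⟩
  have hY : ∀ ℓ ∈ L, ∀ σ : Γℚ, ∃ y ∈ Y,
      ((ρ ℓ σ : GL (Fin 2) ℂ) : Matrix (Fin 2) (Fin 2) ℂ).trace = κ y.1 ∧
      ((ρ ℓ σ : GL (Fin 2) ℂ) : Matrix (Fin 2) (Fin 2) ℂ).det = κ y.2 := by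
    intro ℓ hℓ σ
    obtain ⟨-, -, -, h2, -⟩ := hρ ℓ hℓ
    obtain ⟨a', b', ha', hb', h3, h4⟩ := h2 σ
    refine ⟨(ζ ^ a' + ζ ^ b', ζ ^ (a' + b')), ?_, h3, h4⟩
    exact Finset.mem_image.mpr ⟨(a', b'), Finset.mem_product.mpr
      ⟨Finset.mem_range.mpr ha', Finset.mem_range.mpr hb'⟩, rfl⟩
  have hgood : ∀ ℓ ∈ L, ∀ p : ℕ, p.Prime → ¬ p ∣ N → p ≠ ℓ →
      ∀ V : ValuationSubring (AlgebraicClosure ℚ), V.LiesOverPrime p →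
        (∀ σ ∈ V.inertiaSubgroupIn ℚ, ρ ℓ σ = 1) ∧
        ∀ σ : Γℚ, V.IsFrobeniusAt σ p → ∃ t d a' e' : 𝓞 E,
          κ t = ((ρ ℓ σ : GL (Fin 2) ℂ) : Matrix (Fin 2) (Fin 2) ℂ).trace ∧
          κ d = ((ρ ℓ σ : GL (Fin 2) ℂ) : Matrix (Fin 2) (Fin 2) ℂ).det ∧
          κ a' = a p ∧ κ e' = e p ∧ t - a' ∈ I ℓ ∧ d - e' ∈ I ℓ := by
    intro ℓ hℓ p hp hpN hpℓ V hV
    obtain ⟨-, -, -, -, h3⟩ := hρ ℓ hℓ
    refine ⟨(h3 p hp hpN hpℓ V hV).1, fun σ hσ => ?_⟩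
    obtain ⟨x, hx⟩ := ha p hp hpN
    obtain ⟨y, hy⟩ := he p hp hpN
    obtain ⟨t, d, ht, hd, htx, hdy⟩ := (h3 p hp hpN hpℓ V hV).2 σ hσ x y hx hy
    exact ⟨t, d, x, y, ht, hd, hx, hy, htx, hdy⟩
  obtain ⟨F, hF⟩ := exists_finset_forall_goodAt κ hκ N a e L hL I hI Y ρ hY hgood
  -- two good places
  have hL' : (L \ (F : Set ℕ)).Infinite := hL.sdiff F.finite_toSet
  obtain ⟨ℓ₁, hℓ₁⟩ := hL'.nonempty
  obtain ⟨ℓ₂, hℓ₂⟩ := (hL'.sdiff (Set.finite_singleton ℓ₁)).nonempty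
  have hne : ℓ₂ ≠ ℓ₁ := fun h => hℓ₂.2 (by simp [h])
  have hF₁ : ℓ₁ ∉ F := fun h => hℓ₁.2 (Finset.mem_coe.mpr h)
  have hF₂ : ℓ₂ ∉ F := fun h => hℓ₂.1.2 (Finset.mem_coe.mpr h)
  obtain ⟨hfin₁, -, -, htr₁, -⟩ := hρ ℓ₁ hℓ₁.1
  obtain ⟨hfin₂, -, -, -, -⟩ := hρ ℓ₂ hℓ₂.1.1
  refine ⟨ρ ℓ₁, hfin₁, htr₁, ?_⟩
  refine Fermat.Agent.DS.N7.goodAt_of_two N hN a e (ρ ℓ₁) (ρ ℓ₂) hfin₁ hfin₂ {ℓ₁} {ℓ₂}
    (Finset.disjoint_singleton.mpr hne.symm) ?_ ?_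
  · intro p hp hpN hpB
    exact hF ℓ₁ hℓ₁.1 hF₁ p hp hpN (fun h => hpB (by simp [h]))
  · intro p hp hpN hpB
    exact hF ℓ₂ hℓ₂.1.1 hF₂ p hp hpN (fun h => hpB (by simp [h]))

end Main

end Fermat.Agent.DS.N6
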