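/-
GATE-N / S48-(N6)-S48PLUG (helper51): **the frozen S48 statement from the two open inputs**, in the
exact shapes of their owners:
* `hin : N8.ChebInputs` (helper1; ⟸ `CrossFinalStmt` via `N8.chebInputs_of_crossFinal`);
* `hPort` : for every level `N` the port export `N3.Theta.PortExport1 (N * ℓ) ℓ` for all large
  primes `ℓ ∤ N` (helper4 `DS/N3/Pkg1`, helper69 `DS/P5/PortExportN3`).
Chain: helper12 `N3.s48_reduce` (coefficients in the Hecke ring) → `s48_of_modL` (this directory)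
→ helper4 `N3.Theta.gateModL_of_port`.  `Fermat/Agent/S48.lean` is `s48_of_port chebInputs port`.
-/
import Mathlib
import Fermat.Agent.DS.N6.FinalTop
import Fermat.Agent.DS.N3.GateModL

set_option autoImplicit false

open NumberField CongruenceSubgroup
open scoped MatrixGroups

namespace Fermat.Agent.DS.N6

local notation "Γℚ" => (AlgebraicClosure ℚ ≃ₐ[ℚ] AlgebraicClosure ℚ)

/-- **The frozen S48 from `ChebInputs` and the port export.** -/
theorem s48_of_port (hin : Fermat.Agent.DS.N8.ChebInputs)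
    (hPort : ∀ (N : ℕ) [NeZero N], ∃ ℓ₁ : ℕ,
      ∀ (ℓ : ℕ) [Fact ℓ.Prime] [NeZero (N * ℓ)], ℓ₁ ≤ ℓ → ¬ ℓ ∣ N →
        Fermat.Agent.DS.N3.Theta.PortExport1 (N * ℓ) ℓ)
    (N : ℕ) [NeZero N] (ε : DirichletCharacter ℂ N) (f : CuspForm (Gamma1 N) 1)
    (hf₁ : ModularFormClass.qCoeff f 1 = 1)
    (hT : ∀ p : ℕ, p.Prime → ¬ p ∣ N → ∀ n : ℕ,
        ModularFormClass.qCoeff f (p * n) +
            ε (p : ZMod N) * (if p ∣ n then ModularFormClass.qCoeff f (n / p) else 0) =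
          ModularFormClass.qCoeff f p * ModularFormClass.qCoeff f n) :
    ∃ ρ : Γℚ →* GL (Fin 2) ℂ, GaloisFactorsThroughFiniteLevel ρ ∧
      (Deformation.matrixRepresentation ρ).IsIrreducible ∧
      ∀ p : ℕ, p.Prime → ¬ p ∣ N →
        ∀ A : ValuationSubring (AlgebraicClosure ℚ), A.LiesOverPrime p →
          (∀ σ ∈ A.inertiaSubgroupIn ℚ, ρ σ = 1) ∧
          ∀ σ : Γℚ, A.IsFrobeniusAt σ p →
            ((ρ σ : GL (Fin 2) ℂ) : Matrix (Fin 2) (Fin 2) ℂ).trace =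
              ModularFormClass.qCoeff f p ∧
            ((ρ σ : GL (Fin 2) ℂ) : Matrix (Fin 2) (Fin 2) ℂ).det = ε (p : ZMod N) := by
  refine Fermat.Agent.DS.N3.s48_reduce ?_ N ε f hf₁ hT
  intro N' _ ε' f' hf₁' hT' hring
  obtain ⟨ℓ₁, hℓ₁⟩ := hPort N'
  refine s48_of_modL hin N' ε' f' hf₁' hT' ?_
  intro E _ a' e' ha' he'
  exact Fermat.Agent.DS.N3.Theta.gateModL_of_port N' ε' f' hf₁' hT' hring ℓ₁
    (fun ℓ _ _ h1 h2 => hℓ₁ ℓ h1 h2) (algebraMap E ℂ) a' e' ha' he'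

end Fermat.Agent.DS.N6
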