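/-
GATE-N / S48-(N6)-S48PLUG-P (helper51): `s48_of_port` with a **level predicate** `P`: the port
export is only asked at levels `N` with `P N` (e.g. `2 ∣ N ∨ 3 ∣ N`, or `4 ∣ N ∨ 9 ∣ N`, the range
of the Hauptmodul charts of the `Γ₁`-port), provided `P` is reached from every level by two
coprime multipliers (helper52 `SmallPrimes.s48At_of_reach`) and is stable under `N ↦ N * N`
(helper12's depletion).  Chain: `s48At_of_reach` → `exists_depleted_s48`/`s48_of_depleted` →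
`s48_of_modL` → `gateModL_of_port`.
-/
import Mathlib
import Fermat.Agent.DS.N6.FinalTop
import Fermat.Agent.DS.N3.GateModL
import Fermat.Agent.DS.Top.SmallPrimes

set_option autoImplicit false

open NumberField CongruenceSubgroup
open scoped MatrixGroups

namespace Fermat.Agent.DS.N6

local notation "Γℚ" => (AlgebraicClosure ℚ ≃ₐ[ℚ] AlgebraicClosure ℚ)

open Fermat.Agent.DS.Top.SmallPrimes in
/-- **The frozen S48 at every level from `ChebInputs` and the port export at the levels `N` with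
`P N`.** -/
theorem s48At_of_port_of (P : ℕ → Prop)
    (hP : ∀ N : ℕ, N ≠ 0 →
      ∃ m m' : ℕ, m ≠ 0 ∧ m' ≠ 0 ∧ Nat.Coprime m m' ∧ P (m * N) ∧ P (m' * N))
    (hsq : ∀ N : ℕ, P N → P (N * N))
    (hin : Fermat.Agent.DS.N8.ChebInputs)
    (hPort : ∀ (N : ℕ) [NeZero N], P N → ∃ ℓ₁ : ℕ,
      ∀ (ℓ : ℕ) [Fact ℓ.Prime] [NeZero (N * ℓ)], ℓ₁ ≤ ℓ → ¬ ℓ ∣ N →
        Fermat.Agent.DS.N3.Theta.PortExport1 (N * ℓ) ℓ) :
    ∀ (N : ℕ) [NeZero N], S48At N := by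
  refine s48At_of_reach P hP ?_
  intro N _ hPN ε f hf₁ hT
  obtain ⟨g, hg, hg1, hgT, hgmem⟩ := Fermat.Agent.DS.N3.exists_depleted_s48 N ε f hf₁ hT
  refine Fermat.Agent.DS.N3.s48_of_depleted N ε f g hg ?_
  obtain ⟨ℓ₁, hℓ₁⟩ := hPort (N * N) (hsq N hPN)
  refine s48_of_modL hin (N * N) _ g hg1 hgT ?_
  intro E _ a' e' ha' he'
  exact Fermat.Agent.DS.N3.Theta.gateModL_of_port (N * N) _ g hg1 hgT hgmem ℓ₁
    (fun ℓ _ _ h1 h2 => hℓ₁ ℓ h1 h2) (algebraMap E ℂ) a' e' ha' he'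

open Fermat.Agent.DS.Top.SmallPrimes in
/-- the port is only needed at levels divisible by `2` or by `3`. -/
theorem s48At_of_port23 (hin : Fermat.Agent.DS.N8.ChebInputs)
    (hPort : ∀ (N : ℕ) [NeZero N], (2 ∣ N ∨ 3 ∣ N) → ∃ ℓ₁ : ℕ,
      ∀ (ℓ : ℕ) [Fact ℓ.Prime] [NeZero (N * ℓ)], ℓ₁ ≤ ℓ → ¬ ℓ ∣ N →
        Fermat.Agent.DS.N3.Theta.PortExport1 (N * ℓ) ℓ) :
    ∀ (N : ℕ) [NeZero N], S48At N :=
  s48At_of_port_of (fun N => 2 ∣ N ∨ 3 ∣ N)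
    (fun N _ => ⟨2, 3, by norm_num, by norm_num, by norm_num,
      Or.inl (dvd_mul_right 2 N), Or.inr (dvd_mul_right 3 N)⟩)
    (fun N h => h.imp (fun h2 => dvd_mul_of_dvd_left h2 N) (fun h3 => dvd_mul_of_dvd_left h3 N))
    hin hPort

open Fermat.Agent.DS.Top.SmallPrimes in
/-- the port is only needed at levels divisible by `4` or by `9`. -/
theorem s48At_of_port49 (hin : Fermat.Agent.DS.N8.ChebInputs)
    (hPort : ∀ (N : ℕ) [NeZero N], (4 ∣ N ∨ 9 ∣ N) → ∃ ℓ₁ : ℕ,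
      ∀ (ℓ : ℕ) [Fact ℓ.Prime] [NeZero (N * ℓ)], ℓ₁ ≤ ℓ → ¬ ℓ ∣ N →
        Fermat.Agent.DS.N3.Theta.PortExport1 (N * ℓ) ℓ) :
    ∀ (N : ℕ) [NeZero N], S48At N :=
  s48At_of_port_of (fun N => 4 ∣ N ∨ 9 ∣ N)
    (fun N _ => ⟨4, 9, by norm_num, by norm_num, by norm_num,
      Or.inl (dvd_mul_right 4 N), Or.inr (dvd_mul_right 9 N)⟩)
    (fun N h => h.imp (fun h2 => dvd_mul_of_dvd_left h2 N) (fun h3 => dvd_mul_of_dvd_left h3 N))
    hin hPort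

end Fermat.Agent.DS.N6
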