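/-
GATE-N / S48-(N6)-S48PORT (helper51): **the frozen S48 from the port export alone** —
`S48PlugP` with helper82's unconditional `N8.CrossFinal.chebInputs` plugged.
`Fermat/Agent/S48.lean` is `s48At_of_port_only P hP hsq port N ε f hf₁ hT` (or the `23`/`49` forms).
-/
import Mathlib
import Fermat.Agent.DS.N6.S48PlugP
import Fermat.Agent.DS.N6.S48Plug
import Fermat.Agent.DS.N8.CrossFinal

set_option autoImplicit false

namespace Fermat.Agent.DS.N6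

open Fermat.Agent.DS.Top.SmallPrimes

/-- **The frozen S48 at every level from the port export at the levels `N` with `P N`.** -/
theorem s48At_of_port_only (P : ℕ → Prop)
    (hP : ∀ N : ℕ, N ≠ 0 →
      ∃ m m' : ℕ, m ≠ 0 ∧ m' ≠ 0 ∧ Nat.Coprime m m' ∧ P (m * N) ∧ P (m' * N))
    (hsq : ∀ N : ℕ, P N → P (N * N))
    (hPort : ∀ (N : ℕ) [NeZero N], P N → ∃ ℓ₁ : ℕ,
      ∀ (ℓ : ℕ) [Fact ℓ.Prime] [NeZero (N * ℓ)], ℓ₁ ≤ ℓ → ¬ ℓ ∣ N →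
        Fermat.Agent.DS.N3.Theta.PortExport1 (N * ℓ) ℓ) :
    ∀ (N : ℕ) [NeZero N], S48At N :=
  s48At_of_port_of P hP hsq Fermat.Agent.DS.N8.CrossFinal.chebInputs hPort

/-- the port at the levels divisible by `2` or by `3`. -/
theorem s48At_of_port_only23
    (hPort : ∀ (N : ℕ) [NeZero N], (2 ∣ N ∨ 3 ∣ N) → ∃ ℓ₁ : ℕ,
      ∀ (ℓ : ℕ) [Fact ℓ.Prime] [NeZero (N * ℓ)], ℓ₁ ≤ ℓ → ¬ ℓ ∣ N →
        Fermat.Agent.DS.N3.Theta.PortExport1 (N * ℓ) ℓ) :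
    ∀ (N : ℕ) [NeZero N], S48At N :=
  s48At_of_port23 Fermat.Agent.DS.N8.CrossFinal.chebInputs hPort

/-- the port at the levels divisible by `4` or by `9`. -/
theorem s48At_of_port_only49
    (hPort : ∀ (N : ℕ) [NeZero N], (4 ∣ N ∨ 9 ∣ N) → ∃ ℓ₁ : ℕ,
      ∀ (ℓ : ℕ) [Fact ℓ.Prime] [NeZero (N * ℓ)], ℓ₁ ≤ ℓ → ¬ ℓ ∣ N →
        Fermat.Agent.DS.N3.Theta.PortExport1 (N * ℓ) ℓ) :
    ∀ (N : ℕ) [NeZero N], S48At N :=
  s48At_of_port49 Fermat.Agent.DS.N8.CrossFinal.chebInputs hPort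

/-- the port at every level. -/
theorem s48At_of_port_only_all
    (hPort : ∀ (N : ℕ) [NeZero N], ∃ ℓ₁ : ℕ,
      ∀ (ℓ : ℕ) [Fact ℓ.Prime] [NeZero (N * ℓ)], ℓ₁ ≤ ℓ → ¬ ℓ ∣ N →
        Fermat.Agent.DS.N3.Theta.PortExport1 (N * ℓ) ℓ) :
    ∀ (N : ℕ) [NeZero N], S48At N :=
  fun N _ ε f hf₁ hT =>
    s48_of_port Fermat.Agent.DS.N8.CrossFinal.chebInputs hPort N ε f hf₁ hT

end Fermat.Agent.DS.N6
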